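import Mathlib

/-! # S22 : an abstract finiteness criterion (owner: helper22) -/

set_option autoImplicit false

noncomputable section

namespace Fermat.Agent.S22

variable {V : Type*} [AddCommGroup V] [Module ℂ V]

/-- the subalgebra of endomorphisms whose transpose preserves a given subgroup of the dual -/
def stabAlg (L : Submodule ℤ (Module.Dual ℂ V)) : Subalgebra ℤ (Module.End ℂ V) where
  carrier := {t | ∀ l ∈ L, l ∘ₗ t ∈ L}
  mul_mem' := by
    intro a b ha hb l hl
    have := hb _ (ha l hl)
    rwa [LinearMap.comp_assoc] at this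
  add_mem' := by
    intro a b ha hb l hl
    rw [LinearMap.comp_add]
    exact L.add_mem (ha l hl) (hb l hl)
  algebraMap_mem' := by
    intro n l hl
    have : l ∘ₗ (algebraMap ℤ (Module.End ℂ V) n) = n • l := by
      ext x
      simp
    rw [this]
    exact L.smul_mem n hl

/-- transposition, restricted to the lattice -/
def stabMap (L : Submodule ℤ (Module.Dual ℂ V)) : stabAlg L →ₗ[ℤ] (L →ₗ[ℤ] L) where
  toFun t :=
    { toFun := fun l => ⟨(l : Module.Dual ℂ V) ∘ₗ (t : Module.End ℂ V), t.2 l l.2⟩
      map_add' := fun a b => by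
        ext x
        simp
      map_smul' := fun n a => by
        ext x
        simp }
  map_add' a b := by
    ext l x
    simp
  map_smul' n a := by
    ext l x
    simp

theorem stabMap_injective (L : Submodule ℤ (Module.Dual ℂ V))
    (hsep : ∀ f : V, (∀ l ∈ L, l f = 0) → f = 0) : Function.Injective (stabMap L) := by
  rw [← LinearMap.ker_eq_bot, LinearMap.ker_eq_bot']
  intro t ht
  apply Subtype.ext
  ext f
  apply hsep
  intro l hl
  have := congrArg (fun F : L →ₗ[ℤ] L => ((F ⟨l, hl⟩ : L) : Module.Dual ℂ V) f) ht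
  simpa [stabMap] using this

theorem finite_adjoin_of_lattice (L : Submodule ℤ (Module.Dual ℂ V)) (hfg : L.FG)
    (hsep : ∀ f : V, (∀ l ∈ L, l f = 0) → f = 0)
    (gens : Set (Module.End ℂ V)) (hstab : ∀ t ∈ gens, ∀ l ∈ L, l ∘ₗ t ∈ L) :
    Module.Finite ℤ (Algebra.adjoin ℤ gens) := by
  have : Module.Finite ℤ L := Module.Finite.iff_fg.mpr hfg
  have : Module.IsTorsionFree ℤ L := inferInstance
  have : Module.Free ℤ L := inferInstance
  have : Module.Finite ℤ (L →ₗ[ℤ] L) := Module.Finite.linearMap ℤ ℤ L L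
  have hle : Algebra.adjoin ℤ gens ≤ stabAlg L := Algebra.adjoin_le hstab
  let Φ : Algebra.adjoin ℤ gens →ₗ[ℤ] (L →ₗ[ℤ] L) :=
    (stabMap L) ∘ₗ (Subalgebra.inclusion hle).toLinearMap
  have hΦ : Function.Injective Φ :=
    (stabMap_injective L hsep).comp (Subalgebra.inclusion_injective hle)
  exact Module.Finite.of_injective Φ hΦ

end Fermat.Agent.S22

end
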