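import Fermat.Agent.S22.Lattice
import Fermat.Prelude.Sol.S_ModularForm_heckeT_slash_eq_self_of_mem_Gamma0

/-! # S22 : the period lattice is stable under the transposed Hecke operators (owner: helper202)

Math: `T f = ∑ x, f ∣[k] α_x` (`heckeT_eq_sum_onePoint`, `heckeU_eq_sum_zmod` in
`Fermat/Prelude/Sol/S_ModularForm_heckeT_slash_eq_self_of_mem_Gamma0.lean`), the `α_x` upper triangular with
integer entries.  `tow (T f) = ∑ x, tow (f ∣[k] α_x)` (`Tower.sum`, `Tower.slash_upper`, `Tower.tow_eq`) and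
`FF m (tow (f ∣[k] α_x)) τ v = FF m (tow f) (α_x • τ) (act α_x v)` (`FF_tow_slash_upper`).
For `γ ∈ Γ₀(N)`: `α_x γ = γ'_x α_{σ x}` with `γ'_x ∈ Γ₀(N)`, `σ` a permutation (`heckeRep_mul`,
`heckeMatrix_mul_of_dvd`).  Hence, using `coc_eq` at the base points `α_{σ x} • τ`,
`coc (T f) γ v = ∑ x, coc f γ'_x (act α_{σ x} v)`. -/

set_option autoImplicit false

noncomputable section

open UpperHalfPlane Matrix.SpecialLinearGroup
open scoped MatrixGroups ModularForm Manifold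
open P2MW.S_ModularForm_heckeT_slash_eq_self_of_mem_Gamma0.ModularForm.HeckeSlashInvariance

namespace Fermat.Agent.S22

variable {N m : ℕ} [NeZero N]

/-- The polynomial valued primitive of `∑ x, f ∣[k] α x` for upper triangular `α x`. -/
theorem FF_tow_sum_slash (f : CuspForm (CongruenceSubgroup.Gamma0 N) ((m : ℤ) + 2))
    {ι : Type*} [Fintype ι] (α : ι → GL (Fin 2) ℝ) (hα : ∀ x, α x 1 0 = 0)
    (hdet : ∀ x, 0 < (α x).det.val) (τ : ℍ) (v : ℂ × ℂ) :
    FF m (tow (∑ x, ⇑f ∣[(m : ℤ) + 2] α x)) τ v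
      = ∑ x, FF m (tow ⇑f) (α x • τ) (act (α x) v) := by
  have hs := tower_tow_cuspForm f
  have hS : ∀ x ∈ (Finset.univ : Finset ι), Tower (⇑f ∣[(m : ℤ) + 2] α x)
      (fun j => (((α x 1 1 / α x 0 0 : ℝ) : ℂ) ^ j) • (tow ⇑f j ∣[(m : ℤ) + 2] α x)) :=
    fun x _ => hs.slash_upper ((m : ℤ) + 2) (α x) (hα x) (hdet x)
  rw [(Tower.sum Finset.univ hS).tow_eq, FF_sum]
  exact Finset.sum_congr rfl fun x _ => FF_slash_upper m (tow ⇑f) (α x) (hα x) (hdet x) τ v

/-- The period cocycle of `∑ x, f ∣[k] α x`. -/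
theorem coc_sum_slash (f : CuspForm (CongruenceSubgroup.Gamma0 N) ((m : ℤ) + 2))
    {ι : Type*} [Fintype ι] (α : ι → GL (Fin 2) ℝ) (hα : ∀ x, α x 1 0 = 0)
    (hdet : ∀ x, 0 < (α x).det.val) (γ : SL(2, ℤ)) (σ : Equiv.Perm ι) (γ' : ι → SL(2, ℤ))
    (hγ' : ∀ x, γ' x ∈ CongruenceSubgroup.Gamma0 N)
    (hmul : ∀ x, α x * mapGL ℝ γ = mapGL ℝ (γ' x) * α (σ x)) (v : ℂ × ℂ) :
    coc m (∑ x, ⇑f ∣[(m : ℤ) + 2] α x) (mapGL ℝ γ) v
      = ∑ x, coc m ⇑f (mapGL ℝ (γ' x)) (act (α (σ x)) v) := by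
  rw [coc, FF_tow_sum_slash f α hα hdet, FF_tow_sum_slash f α hα hdet]
  have key : ∀ x, FF m (tow ⇑f) (α x • mapGL ℝ γ • I) (act (α x) (act (mapGL ℝ γ) v))
      = coc m ⇑f (mapGL ℝ (γ' x)) (act (α (σ x)) v)
        + FF m (tow ⇑f) (α (σ x) • I) (act (α (σ x)) v) := by
    intro x
    rw [coc_eq f (hγ' x) (act (α (σ x)) v) (α (σ x) • I), ← act_mul, ← act_mul, ← mul_smul,
      ← mul_smul, hmul x]
    ring
  rw [Finset.sum_congr rfl fun x _ => key x, Finset.sum_add_distrib,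
    Equiv.sum_comp σ (fun x => FF m (tow ⇑f) (α x • I) (act (α x) v))]
  ring

/-- Abstract form of the stability statement. -/
theorem periodLattice_stable_of_sum_slash
    {ι : Type*} [Fintype ι] (α : ι → GL (Fin 2) ℝ) (hα : ∀ x, α x 1 0 = 0)
    (hdet : ∀ x, 0 < (α x).det.val)
    (hint : ∀ x, ∀ a b : ℤ, ∃ a' b' : ℤ, act (α x) ((a : ℂ), (b : ℂ)) = ((a' : ℂ), (b' : ℂ)))
    (hperm : ∀ γ ∈ CongruenceSubgroup.Gamma0 N, ∃ (σ : Equiv.Perm ι) (γ' : ι → SL(2, ℤ)),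
      (∀ x, γ' x ∈ CongruenceSubgroup.Gamma0 N) ∧
        ∀ x, α x * mapGL ℝ γ = mapGL ℝ (γ' x) * α (σ x))
    (T : CuspForm (CongruenceSubgroup.Gamma0 N) ((m : ℤ) + 2) →ₗ[ℂ]
      CuspForm (CongruenceSubgroup.Gamma0 N) ((m : ℤ) + 2))
    (hT : ∀ f, ⇑(T f) = ∑ x, ⇑f ∣[(m : ℤ) + 2] α x)
    {l : Module.Dual ℂ (CuspForm (CongruenceSubgroup.Gamma0 N) ((m : ℤ) + 2))}
    (hl : l ∈ periodLattice N m) : l ∘ₗ T ∈ periodLattice N m := by
  induction hl using Submodule.span_induction with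
  | mem l hl =>
    obtain ⟨γ, hγ, a, b, hlf⟩ := hl
    obtain ⟨σ, γ', hγ', hmul⟩ := hperm γ hγ
    choose a' b' hab using fun x => hint (σ x) a b
    have : l ∘ₗ T = ∑ x, cocLin N m (mapGL ℝ (γ' x)) ((a' x : ℂ), (b' x : ℂ)) := by
      ext f
      rw [LinearMap.comp_apply, hlf, hT, coc_sum_slash f α hα hdet γ σ γ' hγ' hmul,
        LinearMap.sum_apply]
      exact Finset.sum_congr rfl fun x _ => by rw [hab x, cocLin_apply]
    rw [this]
    exact Submodule.sum_mem _ fun x _ => cocLin_mem (hγ' x) (a' x) (b' x)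
  | zero => rw [LinearMap.zero_comp]; exact Submodule.zero_mem _
  | add l₁ l₂ _ _ h₁ h₂ => rw [LinearMap.add_comp]; exact Submodule.add_mem _ h₁ h₂
  | smul n l _ h => rw [LinearMap.smul_comp]; exact Submodule.smul_mem _ n h

theorem act_heckeMatrix {p : ℕ} (hp : p ≠ 0) (j : ℕ) (a b : ℤ) :
    act (ModularForm.heckeMatrix p j) ((a : ℂ), (b : ℂ))
      = (((a + j * b : ℤ) : ℂ), ((p * b : ℤ) : ℂ)) := by
  have h := ModularForm.val_heckeMatrix hp j
  have h00 : (ModularForm.heckeMatrix p j) 0 0 = 1 := by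
    simpa using congrFun (congrFun h 0) 0
  have h01 : (ModularForm.heckeMatrix p j) 0 1 = j := by
    simpa using congrFun (congrFun h 0) 1
  have h10 : (ModularForm.heckeMatrix p j) 1 0 = 0 := by
    simpa using congrFun (congrFun h 1) 0
  have h11 : (ModularForm.heckeMatrix p j) 1 1 = p := by
    simpa using congrFun (congrFun h 1) 1
  simp [act, h00, h01, h10, h11]

theorem act_heckeDiagMatrix {p : ℕ} (hp : p ≠ 0) (a b : ℤ) :
    act (ModularForm.heckeDiagMatrix p) ((a : ℂ), (b : ℂ))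
      = (((p * a : ℤ) : ℂ), ((b : ℤ) : ℂ)) := by
  have h := ModularForm.val_heckeDiagMatrix hp
  have h00 : (ModularForm.heckeDiagMatrix p) 0 0 = p := by
    simpa using congrFun (congrFun h 0) 0
  have h01 : (ModularForm.heckeDiagMatrix p) 0 1 = 0 := by
    simpa using congrFun (congrFun h 0) 1
  have h10 : (ModularForm.heckeDiagMatrix p) 1 0 = 0 := by
    simpa using congrFun (congrFun h 1) 0
  have h11 : (ModularForm.heckeDiagMatrix p) 1 1 = 1 := by
    simpa using congrFun (congrFun h 1) 1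
  simp [act, h00, h01, h10, h11]

theorem heckeMatrix_one_zero {p : ℕ} (hp : p ≠ 0) (j : ℕ) :
    (ModularForm.heckeMatrix p j) 1 0 = 0 := by
  simpa using congrFun (congrFun (ModularForm.val_heckeMatrix hp j) 1) 0

theorem heckeDiagMatrix_one_zero {p : ℕ} (hp : p ≠ 0) :
    (ModularForm.heckeDiagMatrix p) 1 0 = 0 := by
  simpa using congrFun (congrFun (ModularForm.val_heckeDiagMatrix hp) 1) 0

theorem periodLattice_heckeT_stable {p : ℕ} (hp : p.Prime) (hpN : ¬ p ∣ N)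
    {l : Module.Dual ℂ (CuspForm (CongruenceSubgroup.Gamma0 N) ((m : ℤ) + 2))}
    (hl : l ∈ periodLattice N m) :
    l ∘ₗ CuspForm.heckeTLin ((m : ℤ) + 2) hp hpN ∈ periodLattice N m := by
  have : Fact p.Prime := ⟨hp⟩
  have : NeZero p := ⟨hp.ne_zero⟩
  refine periodLattice_stable_of_sum_slash (heckeRep p) ?_ ?_ ?_ ?_ _ ?_ hl
  · intro x
    induction x using OnePoint.rec with
    | infty => exact heckeDiagMatrix_one_zero hp.ne_zero
    | coe j => exact heckeMatrix_one_zero hp.ne_zero _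
  · intro x
    induction x using OnePoint.rec with
    | infty => exact ModularForm.det_heckeDiagMatrix_pos p
    | coe j => exact ModularForm.det_heckeMatrix_pos p _
  · intro x a b
    induction x using OnePoint.rec with
    | infty => exact ⟨_, _, act_heckeDiagMatrix hp.ne_zero a b⟩
    | coe j => exact ⟨_, _, act_heckeMatrix hp.ne_zero _ a b⟩
  · intro γ hγ
    have hcN : (N : ℤ) ∣ γ 1 0 :=
      (ZMod.intCast_zmod_eq_zero_iff_dvd _ _).mp (CongruenceSubgroup.Gamma0_mem.mp hγ)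
    choose γ' hγ' hmul using heckeRep_mul hpN γ hcN
    exact ⟨MulAction.toPerm (redMatrix p γ), γ', fun x => CongruenceSubgroup.Gamma0_mem.mpr
      ((ZMod.intCast_zmod_eq_zero_iff_dvd _ _).mpr (hγ' x)), hmul⟩
  · intro f
    rw [CuspForm.coe_heckeTLin_apply, heckeT_eq_sum_onePoint]

theorem periodLattice_heckeU_stable {p : ℕ} (hpN : p ∣ N)
    {l : Module.Dual ℂ (CuspForm (CongruenceSubgroup.Gamma0 N) ((m : ℤ) + 2))}
    (hl : l ∈ periodLattice N m) :
    l ∘ₗ CuspForm.heckeULin ((m : ℤ) + 2) hpN ∈ periodLattice N m := by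
  have hp0 : p ≠ 0 := fun h => NeZero.ne N (Nat.eq_zero_of_zero_dvd (h ▸ hpN))
  have : NeZero p := ⟨hp0⟩
  refine periodLattice_stable_of_sum_slash (fun x : ZMod p => ModularForm.heckeMatrix p x.val)
    ?_ ?_ ?_ ?_ _ ?_ hl
  · intro x
    exact heckeMatrix_one_zero hp0 _
  · intro x
    exact ModularForm.det_heckeMatrix_pos p _
  · intro x a b
    exact ⟨_, _, act_heckeMatrix hp0 _ a b⟩
  · intro γ hγ
    have hcN : (N : ℤ) ∣ γ 1 0 :=
      (ZMod.intCast_zmod_eq_zero_iff_dvd _ _).mp (CongruenceSubgroup.Gamma0_mem.mp hγ)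
    have hc : (p : ℤ) ∣ γ 1 0 := (Int.natCast_dvd_natCast.mpr hpN).trans hcN
    choose γ' hγ' hmul using heckeMatrix_mul_of_dvd γ hc
    refine ⟨affinePerm γ ((ZMod.intCast_zmod_eq_zero_iff_dvd _ _).mpr hc), γ', fun x => ?_, hmul⟩
    rw [CongruenceSubgroup.Gamma0_mem, hγ' x]
    push_cast
    rw [CongruenceSubgroup.Gamma0_mem.mp hγ, mul_zero]
  · intro f
    rw [CuspForm.coe_heckeULin_apply, heckeU_eq_sum_zmod]

end Fermat.Agent.S22

end
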