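import Fermat.Agent.S22.Tower

/-! # S22 : upper triangular matrices and towers -/

set_option autoImplicit false

noncomputable section

open UpperHalfPlane Matrix.SpecialLinearGroup
open scoped MatrixGroups ModularForm Manifold

namespace Fermat.Agent.S22

variable {φ : ℍ → ℂ} {s t : ℕ → ℍ → ℂ}

theorem upper_det {α : GL (Fin 2) ℝ} (hα : α 1 0 = 0) : α.val.det = α 0 0 * α 1 1 := by
  rw [Matrix.det_fin_two, hα]; ring

theorem upper_slash_apply (ψ : ℍ → ℂ) (k : ℤ) {α : GL (Fin 2) ℝ} (hα : α 1 0 = 0)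
    (hdet : 0 < α.det.val) (τ : ℍ) :
    (ψ ∣[k] α) τ = ψ (α • τ) * (((α 0 0 * α 1 1 : ℝ) : ℂ)) ^ (k - 1) * ((α 1 1 : ℝ) : ℂ) ^ (-k) := by
  have hdet' : α.det.val = α.val.det := Matrix.GeneralLinearGroup.val_det_apply α
  have hg' : 0 < α.val.det := hdet' ▸ hdet
  have hσ (x) : σ α x = x := by simp [σ, hg']
  rw [ModularForm.slash_apply, hσ, hdet', abs_of_pos hg', upper_det hα]
  simp [denom, hα]

theorem upper_coe_smul {α : GL (Fin 2) ℝ} (hα : α 1 0 = 0) (hdet : 0 < α.det.val) (τ : ℍ) :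
    ((α • τ : ℍ) : ℂ) = (((α 0 0 : ℝ) : ℂ) * τ + ((α 0 1 : ℝ) : ℂ)) / ((α 1 1 : ℝ) : ℂ) := by
  rw [coe_smul_of_det_pos hdet]
  simp [num, denom, hα]

/-- for upper triangular `α` the "cocycle" vanishes (purely algebraic identity) -/
theorem FF_slash_upper (m : ℕ) (s : ℕ → ℍ → ℂ) (α : GL (Fin 2) ℝ) (hα : α 1 0 = 0)
    (hdet : 0 < α.det.val) (τ : ℍ) (v : ℂ × ℂ) :
    FF m (fun j => (((α 1 1 / α 0 0 : ℝ) : ℂ) ^ j) • (s j ∣[(m : ℤ) + 2] α)) τ v
      = FF m s (α • τ) (act α v) := by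
  have hdet' : α.det.val = α.val.det := Matrix.GeneralLinearGroup.val_det_apply α
  have had : 0 < α 0 0 * α 1 1 := by rw [← upper_det hα, ← hdet']; exact hdet
  have ha : ((α 0 0 : ℝ) : ℂ) ≠ 0 := by
    have : α 0 0 ≠ 0 := fun h => by simp [h] at had
    exact_mod_cast this
  have hd : ((α 1 1 : ℝ) : ℂ) ≠ 0 := by
    have : α 1 1 ≠ 0 := fun h => by simp [h] at had
    exact_mod_cast this
  simp only [FF]
  refine Finset.sum_congr rfl fun j hj => ?_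
  have hj' : j ≤ m := Nat.lt_succ_iff.mp (Finset.mem_range.mp hj)
  rw [Pi.smul_apply, smul_eq_mul, upper_slash_apply _ _ hα hdet, upper_coe_smul hα hdet]
  simp only [act, hα]
  set a : ℂ := ((α 0 0 : ℝ) : ℂ) with ha_def
  set d : ℂ := ((α 1 1 : ℝ) : ℂ) with hd_def
  set b : ℂ := ((α 0 1 : ℝ) : ℂ) with hb_def
  have h1 : a * v.1 + b * v.2 - (a * τ + b) / d * (((0 : ℝ) : ℂ) * v.1 + d * v.2)
      = a * (v.1 - τ * v.2) := by
    field_simp
    push_cast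
    ring
  rw [h1]
  have h2 : (((0 : ℝ) : ℂ) * v.1 + d * v.2) = d * v.2 := by push_cast; ring
  rw [h2, mul_pow, mul_pow]
  have h3 : (((α 1 1 / α 0 0 : ℝ) : ℂ)) = d / a := by push_cast; rfl
  have h4 : (((α 0 0 * α 1 1 : ℝ) : ℂ)) = a * d := by push_cast; rfl
  rw [h3, h4, show (m : ℤ) + 2 - 1 = (m : ℤ) + 1 by ring, zpow_neg, zpow_add₀ hd, zpow_natCast,
    zpow_add₀ (mul_ne_zero ha hd), zpow_natCast, zpow_one]
  have h5 : d ^ (2 : ℤ) = d ^ 2 := by norm_cast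
  rw [h5]
  obtain ⟨r, rfl⟩ := Nat.exists_eq_add_of_le hj'
  rw [Nat.add_sub_cancel_left, div_pow, mul_pow]
  have e1 : a ^ (j + r) = a ^ j * a ^ r := pow_add a j r
  have e2 : d ^ (j + r) = d ^ j * d ^ r := pow_add d j r
  rw [e1, e2, pow_succ a j, pow_succ d j]
  have haj : a ^ j ≠ 0 := pow_ne_zero _ ha
  have hdj : d ^ j ≠ 0 := pow_ne_zero _ hd
  have hdr : d ^ r ≠ 0 := pow_ne_zero _ hd
  field_simp

theorem IsPrim.slash_upper {a b : ℍ → ℂ} (hab : IsPrim a b) (k : ℤ) (α : GL (Fin 2) ℝ)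
    (hα : α 1 0 = 0) (hdet : 0 < α.det.val) :
    IsPrim ((((α 1 1 / α 0 0 : ℝ) : ℂ)) • (a ∣[k] α)) (b ∣[k] α) := by
  intro τ
  have hdet' : α.det.val = α.val.det := Matrix.GeneralLinearGroup.val_det_apply α
  have hg' : 0 < α.val.det := hdet' ▸ hdet
  have had : 0 < α 0 0 * α 1 1 := by rw [← upper_det hα, ← hdet']; exact hdet
  have ha : ((α 0 0 : ℝ) : ℂ) ≠ 0 := by
    have : α 0 0 ≠ 0 := fun h => by simp [h] at had
    exact_mod_cast this
  have hd : ((α 1 1 : ℝ) : ℂ) ≠ 0 := by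
    have : α 1 1 ≠ 0 := fun h => by simp [h] at had
    exact_mod_cast this
  have h_smul : HasDerivAt (fun w ↦ ↑(α • ofComplex w) : ℂ → ℂ)
      ((α.val.det : ℂ) / denom α τ ^ 2) ↑τ := (hasStrictDerivAt_smul hg' τ).hasDerivAt
  have h_a : HasDerivAt (a ∘ ofComplex) (b (α • τ)) ((fun w ↦ ↑(α • ofComplex w) : ℂ → ℂ) ↑τ) := by
    simpa only [ofComplex_apply] using hab (α • τ)
  have hcomp := h_a.comp (τ : ℂ) h_smul
  have h2 := ((hcomp.mul_const ((((α 0 0 * α 1 1 : ℝ) : ℂ)) ^ (k - 1))).mul_const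
    (((α 1 1 : ℝ) : ℂ) ^ (-k))).const_mul (((α 1 1 / α 0 0 : ℝ) : ℂ))
  refine (h2.congr_deriv ?_).congr_of_eventuallyEq ?_
  · rw [upper_slash_apply _ _ hα hdet, upper_det hα]
    have : denom α (τ : ℂ) = ((α 1 1 : ℝ) : ℂ) := by simp [denom, hα]
    rw [this]
    push_cast
    field_simp
  · refine Filter.Eventually.of_forall fun z => ?_
    simp only [Function.comp_apply, Pi.smul_apply, smul_eq_mul, ofComplex_apply]
    rw [upper_slash_apply _ _ hα hdet]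

/-- the tower of `φ ∣[k] α` for upper triangular `α` -/
theorem Tower.slash_upper (hs : Tower φ s) (k : ℤ) (α : GL (Fin 2) ℝ) (hα : α 1 0 = 0)
    (hdet : 0 < α.det.val) :
    Tower (φ ∣[k] α) (fun j => (((α 1 1 / α 0 0 : ℝ) : ℂ) ^ j) • (s j ∣[k] α)) := by
  refine ⟨by simp [hs.zero], fun j => ?_, fun j => ?_⟩
  · have h1 := ((hs.prim j).slash_upper k α hα hdet).smul (((α 1 1 / α 0 0 : ℝ) : ℂ) ^ j)
    rw [smul_smul, ← pow_succ] at h1
    exact h1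
  · have h1 := Filter.Tendsto.const_smul (IsZeroAtImInfty.slash k hα (hs.decay j))
      (((α 1 1 / α 0 0 : ℝ) : ℂ) ^ (j + 1))
    rw [smul_zero] at h1
    exact h1

end Fermat.Agent.S22

end
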