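import Fermat.Agent.S22.Tower
import Fermat.Agent.S22.Upper

/-! # S22 : derivative of the polynomial valued primitive, constancy -/

set_option autoImplicit false

noncomputable section

open UpperHalfPlane Matrix.SpecialLinearGroup
open scoped MatrixGroups ModularForm Manifold

namespace Fermat.Agent.S22

variable {φ : ℍ → ℂ} {s t : ℕ → ℍ → ℂ}

/-- `∂_z FF(z; v) = φ(z) (X - z Y)^m` (telescoping sum). -/
theorem hasDerivAt_FF (hs : Tower φ s) (m : ℕ) (v : ℂ × ℂ) (τ : ℍ) :
    HasDerivAt (fun z : ℂ => FF m s (ofComplex z) v) (φ τ * (v.1 - (τ : ℂ) * v.2) ^ m) (τ : ℂ) := by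
  -- derivative of each term
  have hlin : HasDerivAt (fun z : ℂ => v.1 - z * v.2) (-v.2) (τ : ℂ) := by
    have := ((hasDerivAt_id (τ : ℂ)).mul_const v.2).const_sub v.1
    simpa using this
  have hterm : ∀ j : ℕ, HasDerivAt
      (fun z : ℂ => (m.descFactorial j : ℂ) * (s (j + 1) ∘ ofComplex) z * (v.1 - z * v.2) ^ (m - j)
        * v.2 ^ j)
      ((m.descFactorial j : ℂ) * (s j τ * (v.1 - (τ : ℂ) * v.2) ^ (m - j)
        + s (j + 1) τ * (((m - j : ℕ) : ℂ) * (v.1 - (τ : ℂ) * v.2) ^ (m - j - 1) * (-v.2))) * v.2 ^ j)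
      (τ : ℂ) := by
    intro j
    have h1 := (hs.prim j τ).mul (hlin.pow (m - j))
    have h2 := (h1.const_mul (m.descFactorial j : ℂ)).mul_const (v.2 ^ j)
    simp only [Function.comp_apply, ofComplex_apply, Pi.pow_apply] at h2
    refine h2.congr_of_eventuallyEq ?_
    exact Filter.Eventually.of_forall fun z => by simp [Function.comp_apply, mul_assoc]
  have hsum := HasDerivAt.fun_sum (u := Finset.range (m + 1)) fun j _ => hterm j
  have hval : ∑ j ∈ Finset.range (m + 1), ((m.descFactorial j : ℂ) *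
      (s j τ * (v.1 - (τ : ℂ) * v.2) ^ (m - j)
        + s (j + 1) τ * (((m - j : ℕ) : ℂ) * (v.1 - (τ : ℂ) * v.2) ^ (m - j - 1) * (-v.2))) * v.2 ^ j)
      = φ τ * (v.1 - (τ : ℂ) * v.2) ^ m := by
    -- telescoping: term j = a j - a (j+1), a j = desc m j * s j τ * (..)^(m-j) * Y^j
    set a : ℕ → ℂ := fun j => (m.descFactorial j : ℂ) * s j τ * (v.1 - (τ : ℂ) * v.2) ^ (m - j)
      * v.2 ^ j with ha
    have hstep : ∀ j ∈ Finset.range (m + 1), ((m.descFactorial j : ℂ) *
      (s j τ * (v.1 - (τ : ℂ) * v.2) ^ (m - j)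
        + s (j + 1) τ * (((m - j : ℕ) : ℂ) * (v.1 - (τ : ℂ) * v.2) ^ (m - j - 1) * (-v.2))) * v.2 ^ j)
        = a j - a (j + 1) := by
      intro j _
      simp only [ha]
      have h1 : (m.descFactorial (j + 1) : ℂ) = ((m - j : ℕ) : ℂ) * (m.descFactorial j : ℂ) := by
        rw [Nat.descFactorial_succ]; push_cast; ring
      rw [h1, show m - (j + 1) = m - j - 1 by omega, pow_succ v.2 j]
      ring
    rw [Finset.sum_congr rfl hstep, Finset.sum_range_sub']
    simp only [ha]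
    rw [Nat.descFactorial_of_lt (Nat.lt_succ_self m), hs.zero]
    simp
  rw [hval] at hsum
  refine hsum.congr_of_eventuallyEq ?_
  filter_upwards [isOpen_upperHalfPlaneSet.mem_nhds τ.im_pos] with w hw
  simp only [FF, Function.comp_apply]
  refine Finset.sum_congr rfl fun j _ => ?_
  rw [ofComplex_apply_of_im_pos hw]

/-- `∂_z FF(g z; g v) = (φ ∣[m+2] g)(z) (X - z Y)^m` for `det g > 0`. -/
theorem hasDerivAt_FF_smul (hs : Tower φ s) (m : ℕ) (g : GL (Fin 2) ℝ) (hg : 0 < g.det.val)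
    (v : ℂ × ℂ) (τ : ℍ) :
    HasDerivAt (fun z : ℂ => FF m s (g • ofComplex z) (act g v))
      ((φ ∣[(m : ℤ) + 2] g) τ * (v.1 - (τ : ℂ) * v.2) ^ m) (τ : ℂ) := by
  have hdet : g.det.val = g.val.det := Matrix.GeneralLinearGroup.val_det_apply g
  have hg' : 0 < g.val.det := hdet ▸ hg
  have h_smul : HasDerivAt (fun w ↦ ↑(g • ofComplex w) : ℂ → ℂ)
      ((g.val.det : ℂ) / denom g τ ^ 2) ↑τ := (hasStrictDerivAt_smul hg' τ).hasDerivAt
  have h_F := hasDerivAt_FF hs m (act g v) (g • τ)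
  have h_F' : HasDerivAt (fun z : ℂ => FF m s (ofComplex z) (act g v))
      (φ (g • τ) * ((act g v).1 - ((g • τ : ℍ) : ℂ) * (act g v).2) ^ m)
      ((fun w ↦ ↑(g • ofComplex w) : ℂ → ℂ) ↑τ) := by
    simpa only [ofComplex_apply] using h_F
  have hcomp := h_F'.comp (τ : ℂ) h_smul
  have hz := denom_ne_zero g τ
  have hσ (x) : σ g x = x := by
    simp [σ, hg']
  refine (hcomp.congr_deriv ?_).congr_of_eventuallyEq ?_
  · rw [ModularForm.slash_apply, hσ, hdet, abs_of_pos hg', coe_smul_of_det_pos hg]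
    have hkey : (act g v).1 - num g τ / denom g τ * (act g v).2
        = (g.val.det : ℂ) * (v.1 - (τ : ℂ) * v.2) / denom g τ := by
      rw [eq_div_iff hz]
      have : (num g τ / denom g τ) * denom g τ = num g τ := div_mul_cancel₀ _ hz
      have h3 : ((act g v).1 - num g τ / denom g τ * (act g v).2) * denom g τ
          = (act g v).1 * denom g τ - num g τ * (act g v).2 := by
        rw [sub_mul, mul_right_comm, this]
      rw [h3]
      simp only [act, num, denom, Matrix.det_fin_two]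
      push_cast
      ring
    rw [hkey, div_pow, mul_pow]
    have hD : (g.val.det : ℂ) ≠ 0 := by exact_mod_cast hg'.ne'
    rw [show (m : ℤ) + 2 - 1 = (m : ℤ) + 1 by ring, zpow_add₀ hD, zpow_natCast, zpow_one, zpow_neg,
      zpow_add₀ hz, zpow_natCast]
    have : denom g (τ : ℂ) ^ (2 : ℤ) = denom g τ ^ 2 := by norm_cast
    rw [this]
    field_simp
  · exact Filter.Eventually.of_forall fun z => by simp [Function.comp_apply]

/-- constancy of the "cocycle" -/
theorem FF_smul_sub_const (m : ℕ) (g : GL (Fin 2) ℝ) (hg : 0 < g.det.val) (hs : Tower φ s)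
    (ht : Tower (φ ∣[(m : ℤ) + 2] g) t) (v : ℂ × ℂ) (τ τ' : ℍ) :
    FF m s (g • τ) (act g v) - FF m t τ v = FF m s (g • τ') (act g v) - FF m t τ' v := by
  have h0 : IsPrim (fun τ : ℍ => FF m s (g • τ) (act g v) - FF m t τ v) 0 := by
    intro τ
    have h1 := (hasDerivAt_FF_smul hs m g hg v τ).sub (hasDerivAt_FF ht m v τ)
    rw [sub_self] at h1
    exact h1
  exact const_of_isPrim_zero h0 τ τ'

/-- packaged version -/
theorem FF_tow_slash_upper (hs : Tower φ s) (m : ℕ) (α : GL (Fin 2) ℝ) (hα : α 1 0 = 0)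
    (hdet : 0 < α.det.val) (τ : ℍ) (v : ℂ × ℂ) :
    FF m (tow (φ ∣[(m : ℤ) + 2] α)) τ v = FF m s (α • τ) (act α v) := by
  rw [(hs.slash_upper ((m : ℤ) + 2) α hα hdet).tow_eq, FF_slash_upper m s α hα hdet]

end Fermat.Agent.S22

end
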