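import Fermat.Agent.S22.Adm
import Fermat.Agent.S22.Deriv

/-! # S22 : the period cocycle on cusp forms, the period lattice is finitely generated
(owner: helper22) -/

set_option autoImplicit false

noncomputable section

open UpperHalfPlane Matrix.SpecialLinearGroup
open scoped MatrixGroups ModularForm Manifold

namespace Fermat.Agent.S22

variable {N m : ℕ} [NeZero N]

theorem det_mapGL_pos (γ : SL(2, ℤ)) : 0 < (mapGL ℝ γ).det.val := by
  simp

omit [NeZero N] in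
theorem slash_mapGL_of_mem {k : ℤ} (f : CuspForm (CongruenceSubgroup.Gamma0 N) k) {γ : SL(2, ℤ)}
    (hγ : γ ∈ CongruenceSubgroup.Gamma0 N) : ⇑f ∣[k] mapGL ℝ γ = ⇑f :=
  SlashInvariantFormClass.slash_action_eq f _ (Subgroup.mem_map_of_mem (mapGL ℝ) hγ)

/-- the cocycle may be computed at any base point -/
theorem coc_eq (f : CuspForm (CongruenceSubgroup.Gamma0 N) ((m : ℤ) + 2)) {γ : SL(2, ℤ)}
    (hγ : γ ∈ CongruenceSubgroup.Gamma0 N) (v : ℂ × ℂ) (τ : ℍ) :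
    coc m ⇑f (mapGL ℝ γ) v
      = FF m (tow ⇑f) (mapGL ℝ γ • τ) (act (mapGL ℝ γ) v) - FF m (tow ⇑f) τ v := by
  have hs := tower_tow_cuspForm f
  have ht : Tower (⇑f ∣[(m : ℤ) + 2] mapGL ℝ γ) (tow ⇑f) := by
    rw [slash_mapGL_of_mem f hγ]; exact hs
  exact FF_smul_sub_const m (mapGL ℝ γ) (det_mapGL_pos γ) hs ht v I τ

theorem coc_mul (f : CuspForm (CongruenceSubgroup.Gamma0 N) ((m : ℤ) + 2)) {γ δ : SL(2, ℤ)}
    (hγ : γ ∈ CongruenceSubgroup.Gamma0 N) (hδ : δ ∈ CongruenceSubgroup.Gamma0 N) (v : ℂ × ℂ) :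
    coc m ⇑f (mapGL ℝ (γ * δ)) v
      = coc m ⇑f (mapGL ℝ γ) (act (mapGL ℝ δ) v) + coc m ⇑f (mapGL ℝ δ) v := by
  rw [coc_eq f (mul_mem hγ hδ) v I, coc_eq f hγ _ (mapGL ℝ δ • I), coc_eq f hδ v I, map_mul,
    act_mul, mul_smul]
  ring

theorem tow_add (f g : CuspForm (CongruenceSubgroup.Gamma0 N) ((m : ℤ) + 2)) :
    tow ⇑(f + g) = tow ⇑f + tow ⇑g :=
  ((tower_tow_cuspForm f).add (tower_tow_cuspForm g)).tow_eq

theorem tow_smul (c : ℂ) (f : CuspForm (CongruenceSubgroup.Gamma0 N) ((m : ℤ) + 2)) :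
    tow ⇑(c • f) = c • tow ⇑f :=
  ((tower_tow_cuspForm f).smul c).tow_eq

/-- evaluation of the `j`-th level of the tower, as a linear functional -/
def evLin (N m : ℕ) [NeZero N] (j : ℕ) (τ : ℍ) :
    Module.Dual ℂ (CuspForm (CongruenceSubgroup.Gamma0 N) ((m : ℤ) + 2)) where
  toFun f := tow ⇑f j τ
  map_add' f g := by rw [tow_add]; rfl
  map_smul' c f := by rw [tow_smul]; rfl

@[simp] theorem evLin_apply (j : ℕ) (τ : ℍ)
    (f : CuspForm (CongruenceSubgroup.Gamma0 N) ((m : ℤ) + 2)) : evLin N m j τ f = tow ⇑f j τ := rfl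

/-- the period functional `f ↦ coc m f g v` -/
def cocLin (N m : ℕ) [NeZero N] (g : GL (Fin 2) ℝ) (v : ℂ × ℂ) :
    Module.Dual ℂ (CuspForm (CongruenceSubgroup.Gamma0 N) ((m : ℤ) + 2)) where
  toFun f := coc m ⇑f g v
  map_add' f g := by simp only [coc, tow_add, FF_add]; ring
  map_smul' c f := by simp only [coc, tow_smul, FF_smul, smul_eq_mul, RingHom.id_apply]; ring

@[simp] theorem cocLin_apply (g : GL (Fin 2) ℝ) (v : ℂ × ℂ)
    (f : CuspForm (CongruenceSubgroup.Gamma0 N) ((m : ℤ) + 2)) : cocLin N m g v f = coc m ⇑f g v := rfl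

theorem cocLin_mem {γ : SL(2, ℤ)} (hγ : γ ∈ CongruenceSubgroup.Gamma0 N) (x y : ℤ) :
    cocLin N m (mapGL ℝ γ) ((x : ℂ), (y : ℂ)) ∈ periodLattice N m :=
  Submodule.subset_span ⟨γ, hγ, x, y, fun _ => rfl⟩

theorem periodLattice_eq :
    periodLattice N m = Submodule.span ℤ {l | ∃ γ ∈ CongruenceSubgroup.Gamma0 N, ∃ x y : ℤ,
      l = cocLin N m (mapGL ℝ γ) ((x : ℂ), (y : ℂ))} := by
  unfold periodLattice
  congr 1
  ext l
  constructor
  · rintro ⟨γ, hγ, x, y, h⟩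
    exact ⟨γ, hγ, x, y, LinearMap.ext h⟩
  · rintro ⟨γ, hγ, x, y, rfl⟩
    exact ⟨γ, hγ, x, y, fun _ => rfl⟩

/-! ### finite generation -/

/-- the functional `f ↦ FF m (tow f) τ v` -/
def FFLin (N m : ℕ) [NeZero N] (τ : ℍ) (v : ℂ × ℂ) :
    Module.Dual ℂ (CuspForm (CongruenceSubgroup.Gamma0 N) ((m : ℤ) + 2)) where
  toFun f := FF m (tow ⇑f) τ v
  map_add' f g := by simp only [tow_add, FF_add]
  map_smul' c f := by simp only [tow_smul, FF_smul, smul_eq_mul, RingHom.id_apply]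

@[simp] theorem FFLin_apply (τ : ℍ) (v : ℂ × ℂ)
    (f : CuspForm (CongruenceSubgroup.Gamma0 N) ((m : ℤ) + 2)) :
    FFLin N m τ v f = FF m (tow ⇑f) τ v := rfl

/-- the finitely many basic functionals at the point `τ` -/
def basicSet (N m : ℕ) [NeZero N] (τ : ℍ) :
    Set (Module.Dual ℂ (CuspForm (CongruenceSubgroup.Gamma0 N) ((m : ℤ) + 2))) :=
  (fun ij : ℕ × ℕ => ((-(τ : ℂ)) ^ ij.1) • evLin N m (ij.2 + 1) τ) ''
    (↑(Finset.range (m + 1) ×ˢ Finset.range (m + 1)) : Set (ℕ × ℕ))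

theorem basicSet_finite (τ : ℍ) : (basicSet N m τ).Finite :=
  (Finset.finite_toSet _).image _

theorem FFLin_mem_span (τ : ℍ) (x y : ℤ) :
    FFLin N m τ ((x : ℂ), (y : ℂ)) ∈ Submodule.span ℤ (basicSet N m τ) := by
  have key : FFLin N m τ ((x : ℂ), (y : ℂ)) =
      ∑ j ∈ Finset.range (m + 1), ∑ i ∈ Finset.range (m - j + 1),
        (((m.descFactorial j : ℤ) * ((m - j).choose i : ℤ) * x ^ i * y ^ (m - j - i) * y ^ j : ℤ)) •
          (((-(τ : ℂ)) ^ (m - j - i)) • evLin N m (j + 1) τ) := by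
    ext f
    simp only [FFLin_apply, FF, LinearMap.sum_apply, LinearMap.smul_apply, evLin_apply, smul_eq_mul,
      zsmul_eq_mul]
    refine Finset.sum_congr rfl fun j _ => ?_
    rw [show (x : ℂ) - (τ : ℂ) * (y : ℂ) = (x : ℂ) + (-(τ : ℂ)) * (y : ℂ) by ring, add_pow,
      Finset.mul_sum, Finset.sum_mul]
    refine Finset.sum_congr rfl fun i _ => ?_
    push_cast
    rw [mul_pow]
    ring
  rw [key]
  refine Submodule.sum_mem _ fun j hj => Submodule.sum_mem _ fun i _ =>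
    Submodule.smul_mem _ _ (Submodule.subset_span ?_)
  refine ⟨(m - j - i, j), ?_, rfl⟩
  simp only [Finset.coe_product, Set.mem_prod, Finset.mem_coe, Finset.mem_range] at hj ⊢
  omega

theorem act_mapGL_int (γ : SL(2, ℤ)) (x y : ℤ) :
    act (mapGL ℝ γ) ((x : ℂ), (y : ℂ)) =
      (((γ 0 0 * x + γ 0 1 * y : ℤ) : ℂ), ((γ 1 0 * x + γ 1 1 * y : ℤ) : ℂ)) := by
  simp [act]

theorem cocLin_eq_FFLin (g : GL (Fin 2) ℝ) (v : ℂ × ℂ) :
    cocLin N m g v = FFLin N m (g • I) (act g v) - FFLin N m I v := by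
  ext f
  simp [coc]

theorem cocLin_one (v : ℂ × ℂ) : cocLin N m 1 v = 0 := by
  ext f
  simp [coc, act_one]

theorem cocLin_mul {γ δ : SL(2, ℤ)}
    (hγ : γ ∈ CongruenceSubgroup.Gamma0 N) (hδ : δ ∈ CongruenceSubgroup.Gamma0 N) (v : ℂ × ℂ) :
    cocLin N m (mapGL ℝ (γ * δ)) v
      = cocLin N m (mapGL ℝ γ) (act (mapGL ℝ δ) v) + cocLin N m (mapGL ℝ δ) v := by
  ext f
  simp only [cocLin_apply, LinearMap.add_apply]
  exact coc_mul f hγ hδ v

theorem cocLin_inv {γ : SL(2, ℤ)} (hγ : γ ∈ CongruenceSubgroup.Gamma0 N) (v : ℂ × ℂ) :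
    cocLin N m (mapGL ℝ γ⁻¹) v = - cocLin N m (mapGL ℝ γ) (act (mapGL ℝ γ⁻¹) v) := by
  have h := cocLin_mul (m := m) hγ (inv_mem hγ) v
  rw [mul_inv_cancel, map_one, cocLin_one] at h
  exact eq_neg_of_add_eq_zero_right h.symm

theorem Gamma0_fg (N : ℕ) [NeZero N] : (CongruenceSubgroup.Gamma0 N).FG := by
  have : Group.FG SL(2, ℤ) := by
    rw [Group.fg_iff]
    exact ⟨{ModularGroup.S, ModularGroup.T}, _root_.SpecialLinearGroup.SL2Z_generators,
      by simp⟩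
  rw [← Group.fg_iff_subgroup_fg]
  exact Subgroup.fg_of_index_ne_zero _

theorem periodLattice_fg (N m : ℕ) [NeZero N] : (periodLattice N m).FG := by
  obtain ⟨G, hG, hGfin⟩ := (Subgroup.fg_iff _).mp (Gamma0_fg N)
  set B : Set (Module.Dual ℂ (CuspForm (CongruenceSubgroup.Gamma0 N) ((m : ℤ) + 2))) :=
    basicSet N m I ∪ ⋃ γ ∈ G, basicSet N m (mapGL ℝ γ • I) with hB
  have hBfin : B.Finite :=
    (basicSet_finite I).union (hGfin.biUnion fun γ _ => basicSet_finite _)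
  have hnoeth : IsNoetherian ℤ (Submodule.span ℤ B) := isNoetherian_span_of_finite ℤ hBfin
  have hI : Submodule.span ℤ (basicSet N m I) ≤ Submodule.span ℤ B :=
    Submodule.span_mono Set.subset_union_left
  have hγI : ∀ γ ∈ G, Submodule.span ℤ (basicSet N m (mapGL ℝ γ • I)) ≤ Submodule.span ℤ B :=
    fun γ hγ => Submodule.span_mono
      (Set.subset_union_of_subset_right (Set.subset_biUnion_of_mem (u := fun γ => basicSet N m (mapGL ℝ γ • I)) hγ) _)
  have main : ∀ γ (hγ : γ ∈ Subgroup.closure G), ∀ x y : ℤ,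
      cocLin N m (mapGL ℝ γ) ((x : ℂ), (y : ℂ)) ∈ Submodule.span ℤ B := by
    intro γ hγ
    induction hγ using Subgroup.closure_induction with
    | mem γ hγ =>
      intro x y
      rw [cocLin_eq_FFLin, act_mapGL_int]
      exact Submodule.sub_mem _ (hγI γ hγ (FFLin_mem_span _ _ _)) (hI (FFLin_mem_span _ _ _))
    | one =>
      intro x y
      rw [map_one, cocLin_one]
      exact Submodule.zero_mem _
    | mul γ δ hγ hδ ihγ ihδ =>
      intro x y
      rw [hG] at hγ hδ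
      rw [cocLin_mul hγ hδ, act_mapGL_int]
      exact Submodule.add_mem _ (ihγ _ _) (ihδ _ _)
    | inv γ hγ ih =>
      intro x y
      rw [hG] at hγ
      rw [cocLin_inv hγ, act_mapGL_int]
      exact Submodule.neg_mem _ (ih _ _)
  have hle : periodLattice N m ≤ Submodule.span ℤ B := by
    rw [periodLattice_eq]
    refine Submodule.span_le.mpr ?_
    rintro l ⟨γ, hγ, x, y, rfl⟩
    exact main γ (hG ▸ hγ) x y
  exact Submodule.FG.of_le_of_isNoetherian hle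

end Fermat.Agent.S22

end
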