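import Fermat.Agent.S22.Lattice
import Fermat.Prelude.Thm_ModularForm_sturm_bound_Gamma0

/-! # S22 : the period lattice separates points (owner: helper262)

Math: let `s = tow f`, `G = s (m+1)` (Eichler integral up to `m!`).  Suppose all periods vanish.
1. `X ↦ coc m f γ (X, 1)` is a polynomial function vanishing on `ℤ`, hence zero.
2. `FF_diag`, `FF_homog`, `coc_eq` give `G ∣[-m] γ = G` for `γ ∈ Γ₀(N)`
   (`act γ (τ,1) = (cτ+d) • (γτ, 1)`).
3. For `δ ∈ SL(2,ℤ)`, with `t` the tower of `f ∣[k] δ` (`exists_tower_cuspForm_slash`), `FF_smul_sub_const` gives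
   `m! (G ∣[-m] δ)(τ) = m! t (m+1) τ + P(τ)`, `P` a polynomial; `G ∣[-m] δ` and `t (m+1)` are `h`-periodic
   (`cuspForm_slash_adm`, `Tower.periodic`), so `P` is constant, so `G ∣[-m] δ` is bounded at `i∞`.
4. `G` is a modular form of weight `-m ≤ 0`, zero at `i∞`; Sturm bound gives `G = 0`.
5. `Tower.eq_zero_of_level`. -/

set_option autoImplicit false

noncomputable section

open UpperHalfPlane Matrix.SpecialLinearGroup
open scoped MatrixGroups ModularForm Manifold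

namespace Fermat.Agent.S22

variable {N m : ℕ} [NeZero N]

/-- `X ↦ FF m s τ₀ (aX+b, cX+d)` is a polynomial function. -/
theorem exists_poly_FF (m : ℕ) (s : ℕ → ℍ → ℂ) (τ₀ : ℍ) (a b c d : ℂ) :
    ∃ P : Polynomial ℂ, ∀ X : ℂ, P.eval X = FF m s τ₀ (a * X + b, c * X + d) := by
  refine ⟨∑ j ∈ Finset.range (m + 1),
    Polynomial.C ((m.descFactorial j : ℂ) * s (j + 1) τ₀) *
      ((Polynomial.C a * Polynomial.X + Polynomial.C b) -
        Polynomial.C (τ₀ : ℂ) * (Polynomial.C c * Polynomial.X + Polynomial.C d)) ^ (m - j) *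
      (Polynomial.C c * Polynomial.X + Polynomial.C d) ^ j, fun X => ?_⟩
  simp [FF, Polynomial.eval_finsetSum]

theorem exists_poly_FF_act (m : ℕ) (s : ℕ → ℍ → ℂ) (τ₀ : ℍ) (g : GL (Fin 2) ℝ) :
    ∃ P : Polynomial ℂ, ∀ X : ℂ, P.eval X = FF m s τ₀ (act g (X, 1)) := by
  obtain ⟨P, hP⟩ := exists_poly_FF m s τ₀ ((g 0 0 : ℝ) : ℂ) ((g 0 1 : ℝ) : ℂ) ((g 1 0 : ℝ) : ℂ)
    ((g 1 1 : ℝ) : ℂ)
  exact ⟨P, fun X => by rw [hP]; simp [act]⟩

theorem exists_poly_FF_id (m : ℕ) (s : ℕ → ℍ → ℂ) (τ₀ : ℍ) :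
    ∃ P : Polynomial ℂ, ∀ X : ℂ, P.eval X = FF m s τ₀ (X, 1) := by
  obtain ⟨P, hP⟩ := exists_poly_FF m s τ₀ 1 0 0 1
  exact ⟨P, fun X => by rw [hP]; simp⟩

/-- a polynomial vanishing at all integers is zero -/
theorem poly_eq_zero_of_int {P : Polynomial ℂ} (h : ∀ x : ℤ, P.eval (x : ℂ) = 0) : P = 0 := by
  apply Polynomial.eq_zero_of_infinite_isRoot
  refine (Set.infinite_range_of_injective (Int.cast_injective (α := ℂ))).mono ?_
  rintro _ ⟨x, rfl⟩
  exact h x

/-- a polynomial function which is `h`-periodic on the upper half plane is constant there -/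
theorem poly_const_of_periodic {P : Polynomial ℂ} {h : ℝ} (hh : 0 < h)
    (per : ∀ τ : ℍ, P.eval ((h +ᵥ τ : ℍ) : ℂ) = P.eval (τ : ℂ)) (τ : ℍ) :
    P.eval (τ : ℂ) = P.eval (I : ℂ) := by
  have key : ∀ n : ℕ, P.eval (((n * h : ℝ) +ᵥ I : ℍ) : ℂ) = P.eval (I : ℂ) := by
    intro n
    induction n with
    | zero => simp
    | succ n ih =>
      rw [← ih, ← per ((n * h : ℝ) +ᵥ I)]
      congr 1
      simp only [UpperHalfPlane.coe_vadd]
      push_cast
      ring
  have hQ : P - Polynomial.C (P.eval (I : ℂ)) = 0 := by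
    apply Polynomial.eq_zero_of_infinite_isRoot
    have hinj : Function.Injective (fun n : ℕ => (((n * h : ℝ) +ᵥ I : ℍ) : ℂ)) := by
      intro a b hab
      simp only [UpperHalfPlane.coe_vadd, add_left_inj] at hab
      have : (a : ℝ) * h = b * h := by exact_mod_cast hab
      exact_mod_cast mul_right_cancel₀ hh.ne' this
    refine (Set.infinite_range_of_injective hinj).mono ?_
    rintro _ ⟨n, rfl⟩
    show Polynomial.IsRoot _ _
    rw [Polynomial.IsRoot, Polynomial.eval_sub, Polynomial.eval_C, key n, sub_self]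
  have := congrArg (Polynomial.eval (τ : ℂ)) hQ
  simpa [sub_eq_zero] using this

/-- evaluation on the diagonal after a matrix of positive determinant -/
theorem FF_smul_act_diag (m : ℕ) (s : ℕ → ℍ → ℂ) (g : GL (Fin 2) ℝ) (hg : 0 < g.det.val) (τ : ℍ) :
    FF m s (g • τ) (act g ((τ : ℂ), 1)) = denom g τ ^ m * ((m.factorial : ℂ) * s (m + 1) (g • τ)) := by
  have h1 : act g ((τ : ℂ), 1) = (denom g τ * ((g • τ : ℍ) : ℂ), denom g τ * 1) := by
    rw [UpperHalfPlane.coe_smul_of_det_pos hg, mul_div_cancel₀ _ (denom_ne_zero g τ)]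
    simp [act, num, denom]
  rw [h1, FF_homog m s (g • τ) (denom g τ) (((g • τ : ℍ) : ℂ), 1), FF_diag]

theorem slash_mapGL_apply (F : ℍ → ℂ) (k : ℤ) (δ : SL(2, ℤ)) (τ : ℍ) :
    (F ∣[k] mapGL ℝ δ) τ = F (mapGL ℝ δ • τ) * denom (mapGL ℝ δ) τ ^ (-k) :=
  ModularForm.SL_slash_apply F δ τ

/-- Step 1: vanishing of all integral periods forces the vanishing of the cocycle on `(X, 1)`. -/
theorem coc_eq_zero_of_periods (f : CuspForm (CongruenceSubgroup.Gamma0 N) ((m : ℤ) + 2))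
    (h : ∀ l ∈ periodLattice N m, l f = 0) {γ : SL(2, ℤ)} (hγ : γ ∈ CongruenceSubgroup.Gamma0 N)
    (X : ℂ) : coc m ⇑f (mapGL ℝ γ) (X, 1) = 0 := by
  obtain ⟨P, hP⟩ := exists_poly_FF_act m (tow ⇑f) (mapGL ℝ γ • I) (mapGL ℝ γ)
  obtain ⟨Q, hQ⟩ := exists_poly_FF_id m (tow ⇑f) I
  have hPQ : P - Q = 0 := by
    apply poly_eq_zero_of_int
    intro x
    have := h _ (cocLin_mem (m := m) hγ x 1)
    rw [cocLin_apply, coc] at this
    rw [Polynomial.eval_sub, hP, hQ]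
    simpa using this
  have := congrArg (Polynomial.eval X) hPQ
  rw [Polynomial.eval_sub, hP, hQ, Polynomial.eval_zero] at this
  exact this

/-- Step 2: the top level of the tower is invariant of weight `-m`. -/
theorem top_slash_eq (f : CuspForm (CongruenceSubgroup.Gamma0 N) ((m : ℤ) + 2))
    (h : ∀ l ∈ periodLattice N m, l f = 0) {γ : SL(2, ℤ)} (hγ : γ ∈ CongruenceSubgroup.Gamma0 N) :
    tow ⇑f (m + 1) ∣[-(m : ℤ)] mapGL ℝ γ = tow ⇑f (m + 1) := by
  funext τ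
  have h0 := coc_eq_zero_of_periods f h hγ (τ : ℂ)
  rw [coc_eq f hγ _ τ, FF_smul_act_diag m _ _ (det_mapGL_pos γ), FF_diag, sub_eq_zero] at h0
  rw [slash_mapGL_apply, neg_neg, zpow_natCast]
  have hm : (m.factorial : ℂ) ≠ 0 := by exact_mod_cast m.factorial_ne_zero
  apply mul_left_cancel₀ hm
  rw [← h0]
  ring

theorem slash_upperRightHom_apply (F : ℍ → ℂ) (k : ℤ) (w : ℝ) (τ : ℍ) :
    (F ∣[k] Matrix.GeneralLinearGroup.upperRightHom w) τ = F (w +ᵥ τ) := by
  have h1 : Matrix.GeneralLinearGroup.upperRightHom w • τ = w +ᵥ τ := by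
    ext
    simp [σ, num, denom, coe_vadd, UpperHalfPlane.coe_smul, add_comm]
  rw [ModularForm.slash_apply, h1]
  simp [σ, denom, Matrix.GeneralLinearGroup.val_det_apply]

/-- Step 3: boundedness at all cusps. -/
theorem top_slash_bdd (f : CuspForm (CongruenceSubgroup.Gamma0 N) ((m : ℤ) + 2))
    (h : ∀ l ∈ periodLattice N m, l f = 0) (δ : SL(2, ℤ)) :
    IsBoundedAtImInfty (tow ⇑f (m + 1) ∣[-(m : ℤ)] mapGL ℝ δ) := by
  have hs : Tower ⇑f (tow ⇑f) := tower_tow_cuspForm f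
  obtain ⟨t, ht⟩ := exists_tower_cuspForm_slash f δ
  obtain ⟨-, ⟨w, hw, hmem, hper⟩, -⟩ := cuspForm_slash_adm f δ
  set G := tow ⇑f (m + 1) with hG
  have hm : (m.factorial : ℂ) ≠ 0 := by exact_mod_cast m.factorial_ne_zero
  obtain ⟨P, hP⟩ := exists_poly_FF_act m (tow ⇑f) (mapGL ℝ δ • I) (mapGL ℝ δ)
  obtain ⟨Q, hQ⟩ := exists_poly_FF_id m t I
  have hR : ∀ τ : ℍ, (P - Q).eval (τ : ℂ) =
      (m.factorial : ℂ) * ((G ∣[-(m : ℤ)] mapGL ℝ δ) τ - t (m + 1) τ) := by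
    intro τ
    have h1 := FF_smul_sub_const m (mapGL ℝ δ) (det_mapGL_pos δ) hs ht ((τ : ℂ), 1) τ I
    rw [FF_smul_act_diag m _ _ (det_mapGL_pos δ), FF_diag] at h1
    rw [Polynomial.eval_sub, hP, hQ, ← h1, slash_mapGL_apply, neg_neg, zpow_natCast]
    ring
  have hGper : ∀ τ : ℍ, (G ∣[-(m : ℤ)] mapGL ℝ δ) (w +ᵥ τ) = (G ∣[-(m : ℤ)] mapGL ℝ δ) τ := by
    intro τ
    obtain ⟨γ, hγ, hγe⟩ := hmem
    rw [← slash_upperRightHom_apply (G ∣[-(m : ℤ)] mapGL ℝ δ) (-(m : ℤ)) w τ,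
      ← SlashAction.slash_mul]
    have h2 : mapGL ℝ δ * Matrix.GeneralLinearGroup.upperRightHom w = mapGL ℝ γ * mapGL ℝ δ := by
      rw [hγe]; group
    rw [h2, SlashAction.slash_mul, hG, top_slash_eq f h hγ]
  have htper : ∀ τ : ℍ, t (m + 1) (w +ᵥ τ) = t (m + 1) τ := fun τ => ht.periodic hper (m + 1) τ
  have hconst := poly_const_of_periodic (P := P - Q) hw (fun τ => by rw [hR, hR, hGper, htper])
  have hfun : (G ∣[-(m : ℤ)] mapGL ℝ δ) =
      t (m + 1) + fun _ => (P - Q).eval (I : ℂ) / (m.factorial : ℂ) := by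
    funext τ
    rw [Pi.add_apply, ← hconst τ, hR, mul_div_cancel_left₀ _ hm]
    ring
  rw [hfun]
  exact (ht.decay m).isBoundedAtImInfty.add (Filter.const_boundedAtFilter _ _)

theorem periodLattice_separates (f : CuspForm (CongruenceSubgroup.Gamma0 N) ((m : ℤ) + 2))
    (h : ∀ l ∈ periodLattice N m, l f = 0) : f = 0 := by
  have hs : Tower ⇑f (tow ⇑f) := tower_tow_cuspForm f
  let G : ModularForm (CongruenceSubgroup.Gamma0 N) (-(m : ℤ)) :=
    { toFun := tow ⇑f (m + 1)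
      slash_action_eq' := by
        rintro _ ⟨γ, hγ, rfl⟩
        exact top_slash_eq f h hγ
      holo' := hs.mdiff m
      bdd_at_cusps' := by
        intro c hc
        rw [Subgroup.IsArithmetic.isCusp_iff_isCusp_SL2Z] at hc
        rw [OnePoint.isBoundedAt_iff_forall_SL2Z hc]
        intro δ _
        exact top_slash_bdd f h δ }
  have hGcoe : (⇑G : ℍ → ℂ) = tow ⇑f (m + 1) := rfl
  have hΓ : (1 : ℝ) ∈ (Subgroup.map (mapGL ℝ) (CongruenceSubgroup.Gamma0 N)).strictPeriods := by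
    simp
  have hG0 : G = 0 := by
    apply ModularForm.sturm_bound_Gamma0 N G
    intro n hn
    have h1 : (-(m : ℤ) * ((CongruenceSubgroup.Gamma0 N).index : ℤ)).toNat = 0 := by
      apply Int.toNat_eq_zero.mpr
      have : (0 : ℤ) ≤ (m : ℤ) * ((CongruenceSubgroup.Gamma0 N).index : ℤ) := by positivity
      linarith
    rw [h1] at hn
    have hn0 : n = 0 := by simpa using hn
    subst hn0
    rw [UpperHalfPlane.qExpansion_coeff_zero one_pos
      (ModularFormClass.analyticAt_cuspFunction_zero G one_pos hΓ)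
      (by simpa using SlashInvariantFormClass.periodic_comp_ofComplex G hΓ), hGcoe]
    exact (hs.decay m).valueAtInfty_eq_zero
  have h0 : tow ⇑f (m + 1) = 0 := by
    rw [← hGcoe, hG0]; rfl
  exact DFunLike.coe_injective (hs.eq_zero_of_level h0)

end Fermat.Agent.S22

end
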