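import Mathlib
import Fermat.Prelude.Def_CuspForm_HeckeAlgebra
import Fermat.Prelude.Thm_ModularForm_sturm_bound_Gamma0
import Fermat.Prelude.Thm_CongruenceSubgroup_one_mem_strictPeriods_Gamma0

/-! # S22 : cusp forms of weight `≤ 1` on `Γ₀(N)` vanish (owner: helper22) -/

set_option autoImplicit false

noncomputable section

open UpperHalfPlane Matrix.SpecialLinearGroup
open scoped MatrixGroups ModularForm Manifold

namespace Fermat.Agent.S22

variable {N : ℕ} [NeZero N]

theorem cuspForm_eq_zero_of_nonpos {k : ℤ} (hk : k ≤ 0)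
    (f : CuspForm (CongruenceSubgroup.Gamma0 N) k) : f = 0 := by
  apply CuspForm.toModularFormₗ_injective
  rw [map_zero]
  apply ModularForm.sturm_bound_Gamma0 N
  intro n hn
  have h0 : (k * ((CongruenceSubgroup.Gamma0 N).index : ℤ)).toNat = 0 := by
    rw [Int.toNat_eq_zero]
    exact mul_nonpos_of_nonpos_of_nonneg hk (by positivity)
  rw [h0] at hn
  have hn0 : n = 0 := by omega
  subst hn0
  exact CuspFormClass.qExpansion_coeff_zero f one_pos
    (CongruenceSubgroup.one_mem_strictPeriods_Gamma0 N)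

theorem cuspForm_eq_zero_of_odd {k : ℤ} (hk : Odd k)
    (f : CuspForm (CongruenceSubgroup.Gamma0 N) k) : f = 0 := by
  apply CuspForm.toModularFormₗ_injective
  rw [map_zero]
  apply ModularForm.eq_zero_of_neg_one_mem _ hk
  refine ⟨-1, ?_, ?_⟩
  · rw [SetLike.mem_coe, CongruenceSubgroup.Gamma0_mem]
    simp
  · ext i j
    simp

theorem cuspForm_eq_zero_of_le_one {k : ℤ} (hk : k ≤ 1)
    (f : CuspForm (CongruenceSubgroup.Gamma0 N) k) : f = 0 := by
  rcases hk.lt_or_eq with h | h
  · exact cuspForm_eq_zero_of_nonpos (by omega) f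
  · subst h
    exact cuspForm_eq_zero_of_odd odd_one f

end Fermat.Agent.S22

end
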