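import Mathlib

/-!
# Decaying primitives of periodic holomorphic functions on the upper half plane
(owner: helper262)
-/

set_option autoImplicit false

namespace Fermat.Agent.S22

open UpperHalfPlane hiding I
open Complex Filter Topology Function
open scoped Manifold Real

local notation "𝕢" => Periodic.qParam

/-- periodicity of `τ ↦ G (𝕢 h τ)` in the `∘ ofComplex` form. -/
theorem periodic_comp_qParam {h : ℝ} (hh : h ≠ 0) (G : ℂ → ℂ) :
    Periodic ((fun τ : ℍ => G (𝕢 h τ)) ∘ ofComplex) h := by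
  intro z
  simp only [Function.comp_apply]
  by_cases hz : 0 < z.im
  · have hz' : 0 < (z + h).im := by simpa using hz
    rw [ofComplex_apply_of_im_pos hz, ofComplex_apply_of_im_pos hz']
    congr 1
    show 𝕢 h (z + h) = 𝕢 h z
    simp only [Periodic.qParam]
    have hh' : (h : ℂ) ≠ 0 := by exact_mod_cast hh
    rw [show 2 * (π : ℂ) * I * (z + h) / h = 2 * π * I * z / h + 2 * π * I by field_simp]
    rw [Complex.exp_add, Complex.exp_two_pi_mul_I, mul_one]
  · have hz' : ¬ 0 < (z + h).im := by simpa using hz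
    rw [ofComplex_apply_of_im_nonpos (not_lt.mp hz), ofComplex_apply_of_im_nonpos (not_lt.mp hz')]

theorem hasDerivAt_qParam (h : ℝ) (z : ℂ) :
    HasDerivAt (𝕢 h) (2 * π * I / h * 𝕢 h z) z := by
  unfold Periodic.qParam
  have h1 : HasDerivAt (fun z : ℂ => 2 * π * I * z / h) (2 * π * I / h) z := by
    have := ((hasDerivAt_id z).const_mul (2 * π * I)).div_const (h : ℂ)
    simpa using this
  have h2 := h1.cexp
  rw [mul_comm (cexp _)] at h2
  exact h2

/-- **Decaying primitive.**  A holomorphic `h`-periodic function on `ℍ` vanishing at `i∞` has a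
holomorphic `h`-periodic primitive vanishing at `i∞`, and the `q`-coefficients are related in the
expected way. -/
theorem exists_decaying_primitive {h : ℝ} (hh : 0 < h) {φ : ℍ → ℂ}
    (hper : Periodic (φ ∘ ofComplex) h) (hhol : MDiff φ) (hzero : IsZeroAtImInfty φ) :
    ∃ ψ : ℍ → ℂ, Periodic (ψ ∘ ofComplex) h ∧ MDiff ψ ∧ IsZeroAtImInfty ψ ∧
      (∀ τ : ℍ, HasDerivAt (ψ ∘ ofComplex) (φ τ) τ) ∧
      ∀ n : ℕ, (2 * π * I * n / h) * (qExpansion h ψ).coeff n = (qExpansion h φ).coeff n := by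
  have hbdd : IsBoundedAtImInfty φ := hzero.isBoundedAtImInfty
  have hh' : (h : ℂ) ≠ 0 := by exact_mod_cast hh.ne'
  have hpi : (2 * π * I : ℂ) ≠ 0 := Complex.two_pi_I_ne_zero
  set Φ := cuspFunction h φ with hΦ
  have hΦd : DifferentiableOn ℂ Φ (Metric.ball 0 1) :=
    differentiableOn_cuspFunction_ball hh hper hhol hbdd
  have hΦ0 : Φ 0 = 0 := hzero.cuspFunction_apply_zero hh
  have hball : Metric.ball (0 : ℂ) 1 ∈ 𝓝 (0 : ℂ) := Metric.ball_mem_nhds _ one_pos
  set Φ₁ := dslope Φ 0 with hΦ₁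
  have hΦ₁d : DifferentiableOn ℂ Φ₁ (Metric.ball 0 1) := (differentiableOn_dslope hball).mpr hΦd
  have hΦΦ₁ : ∀ q, Φ q = q * Φ₁ q := by
    intro q
    have := sub_smul_dslope Φ 0 q
    rw [hΦ0, sub_zero, sub_zero, smul_eq_mul] at this
    exact this.symm
  obtain ⟨Ψ, hΨ0, hΨ⟩ := (hΦ₁d.isExactOn_ball).with_val_at 0 0
  have hΨd : DifferentiableOn ℂ Ψ (Metric.ball 0 1) :=
    fun q hq => (hΨ q hq).differentiableAt.differentiableWithinAt
  set c : ℂ := h / (2 * π * I) with hc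
  set ψ : ℍ → ℂ := fun τ => c * Ψ (𝕢 h τ) with hψ
  have hqball : ∀ τ : ℍ, 𝕢 h τ ∈ Metric.ball (0 : ℂ) 1 := fun τ => by
    simpa using Periodic.norm_qParam_lt_one hh τ.im_pos
  have hψper : Periodic (ψ ∘ ofComplex) h := periodic_comp_qParam hh.ne' (fun q => c * Ψ q)
  have hψderiv : ∀ τ : ℍ, HasDerivAt (ψ ∘ ofComplex) (φ τ) τ := by
    intro τ
    have h1 : HasDerivAt (fun z : ℂ => c * Ψ (𝕢 h z)) (φ τ) τ := by
      have h2 := ((hΨ _ (hqball τ)).comp (τ : ℂ) (hasDerivAt_qParam h τ)).const_mul c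
      have h3 : φ τ = c * (Φ₁ (𝕢 h ↑τ) * (2 * ↑π * I / ↑h * 𝕢 h ↑τ)) := by
        rw [← eq_cuspFunction τ hh.ne' hper, ← hΦ, hΦΦ₁, hc]
        field_simp
      rw [h3]
      exact h2
    refine h1.congr_of_eventuallyEq ?_
    filter_upwards [eventuallyEq_coe_comp_ofComplex τ.im_pos] with z hz
    simp only [Function.comp_apply, hψ] at hz ⊢
    rw [hz]; rfl
  have hψhol : MDiff ψ := fun τ =>
    UpperHalfPlane.mdifferentiableAt_iff.mpr (hψderiv τ).differentiableAt
  have hΨcont : ContinuousAt Ψ 0 := (hΨ 0 (by simp)).continuousAt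
  have hψzero : IsZeroAtImInfty ψ := by
    have h1 : Tendsto (fun τ : ℍ => Ψ (𝕢 h τ)) atImInfty (𝓝 (Ψ 0)) :=
      hΨcont.tendsto.comp (qParam_tendsto_atImInfty hh)
    have h2 := h1.const_mul c
    rw [hΨ0, mul_zero] at h2
    exact h2
  refine ⟨ψ, hψper, hψhol, hψzero, hψderiv, ?_⟩
  -- Taylor coefficients
  set t : ℕ → ℂ := fun m => (↑m.factorial)⁻¹ * iteratedDeriv m Φ₁ 0 with ht
  have hΦ₁sum : ∀ q ∈ Metric.ball (0 : ℂ) 1, HasSum (fun m => t m * q ^ m) (Φ₁ q) := by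
    intro q hq
    have := hasSum_taylorSeries_on_ball hΦ₁d hq
    simp only [sub_zero, smul_eq_mul] at this
    refine this.congr_fun fun m => ?_
    rw [ht]; ring
  have hΨsum : ∀ q ∈ Metric.ball (0 : ℂ) 1,
      HasSum (fun m => ((↑m.factorial)⁻¹ * iteratedDeriv m Ψ 0) * q ^ m) (Ψ q) := by
    intro q hq
    have := hasSum_taylorSeries_on_ball hΨd hq
    simp only [sub_zero, smul_eq_mul] at this
    refine this.congr_fun fun m => ?_
    ring
  have hderivΨ : deriv Ψ =ᶠ[𝓝 0] Φ₁ := by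
    filter_upwards [hball] with q hq using (hΨ q hq).deriv
  have hΨcoeff : ∀ m : ℕ, (↑(m + 1).factorial)⁻¹ * iteratedDeriv (m + 1) Ψ 0 = t m / (m + 1) := by
    intro m
    rw [iteratedDeriv_succ', hderivΨ.iteratedDeriv_eq m, ht, Nat.factorial_succ]
    push_cast
    have : ((m : ℂ) + 1) ≠ 0 := by exact_mod_cast Nat.succ_ne_zero m
    field_simp
  -- q-expansion of φ
  set a : ℕ → ℂ := fun n => if n = 0 then 0 else t (n - 1) with ha
  have hφsum : ∀ τ : ℍ, HasSum (fun m => a m • 𝕢 h τ ^ m) (φ τ) := by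
    intro τ
    have h1 := (hΦ₁sum _ (hqball τ)).mul_left (𝕢 h τ)
    rw [← hΦΦ₁, hΦ, eq_cuspFunction τ hh.ne' hper] at h1
    rw [← hasSum_nat_add_iff' 1]
    have h0 : ∑ i ∈ Finset.range 1, a i • 𝕢 h ↑τ ^ i = 0 := by simp [ha]
    rw [h0, sub_zero]
    refine h1.congr_fun fun m => ?_
    simp only [ha, Nat.add_eq_zero_iff, one_ne_zero, and_false, if_false, Nat.add_sub_cancel,
      smul_eq_mul]
    ring
  set b : ℕ → ℂ := fun n => if n = 0 then 0 else c * (t (n - 1) / n) with hb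
  have hψsum : ∀ τ : ℍ, HasSum (fun m => b m • 𝕢 h τ ^ m) (ψ τ) := by
    intro τ
    have h1 := (hΨsum _ (hqball τ)).mul_left c
    rw [← hasSum_nat_add_iff' 1] at h1 ⊢
    have h0 : ∑ i ∈ Finset.range 1, b i • 𝕢 h ↑τ ^ i = 0 := by simp [hb]
    have h0' : ∑ i ∈ Finset.range 1,
        c * ((↑i.factorial)⁻¹ * iteratedDeriv i Ψ 0 * 𝕢 h ↑τ ^ i) = 0 := by simp [hΨ0]
    rw [h0, sub_zero]
    rw [h0', sub_zero] at h1
    refine h1.congr_fun fun m => ?_
    rw [hΨcoeff]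
    simp only [hb, Nat.add_eq_zero_iff, one_ne_zero, and_false, if_false, Nat.add_sub_cancel,
      smul_eq_mul]
    push_cast
    ring
  have hφan : AnalyticAt ℂ (cuspFunction h φ) 0 := analyticAt_cuspFunction_zero hh hper hhol hbdd
  have hψan : AnalyticAt ℂ (cuspFunction h ψ) 0 :=
    analyticAt_cuspFunction_zero hh hψper hψhol hψzero.isBoundedAtImInfty
  intro n
  let _ : FunLike (ℍ → ℂ) ℍ ℂ := ⟨fun f => f, fun _ _ h => h⟩
  have e1 : a n = (qExpansion h φ).coeff n :=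
    qExpansion_coeff_unique (F := ℍ → ℂ) φ hh hφan hφsum n
  have e2 : b n = (qExpansion h ψ).coeff n :=
    qExpansion_coeff_unique (F := ℍ → ℂ) ψ hh hψan hψsum n
  rw [← e1, ← e2]
  simp only [ha, hb]
  rcases Nat.eq_zero_or_pos n with rfl | hn
  · simp
  · have hn' : (n : ℂ) ≠ 0 := by exact_mod_cast hn.ne'
    rw [if_neg hn.ne', if_neg hn.ne', hc]
    field_simp

end Fermat.Agent.S22
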