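import Mathlib

set_option autoImplicit false

namespace Fermat.Agent.S22

/-- Abstract finiteness criterion: a `ℤ`-subalgebra `adjoin ℤ G` of `End_ℂ V` is a finite
`ℤ`-module as soon as there is a finitely generated group `Λ` of additive functionals on `V`,
stable under precomposition with the generators, and separating the points of `V`. -/
theorem finite_adjoin_of_separating {V : Type*} [AddCommGroup V] [Module ℂ V]
    (G : Set (Module.End ℂ V)) (Λ : Submodule ℤ (V →+ ℂ)) (hfg : Λ.FG)
    (hstab : ∀ t ∈ G, ∀ l ∈ Λ, l.comp (t : V →ₗ[ℂ] V).toAddMonoidHom ∈ Λ)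
    (hsep : ∀ v : V, (∀ l ∈ Λ, l v = 0) → v = 0) :
    Module.Finite ℤ (Algebra.adjoin ℤ G) := by
  classical
  -- stability under the whole algebra
  have hstab' : ∀ t ∈ Algebra.adjoin ℤ G, ∀ l ∈ Λ,
      l.comp (t : V →ₗ[ℂ] V).toAddMonoidHom ∈ Λ := by
    intro t ht
    induction ht using Algebra.adjoin_induction with
    | mem x hx => exact hstab x hx
    | algebraMap r =>
      intro l hl
      have : l.comp ((algebraMap ℤ (Module.End ℂ V) r : V →ₗ[ℂ] V)).toAddMonoidHom = r • l := by
        ext v
        simp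
      rw [this]
      exact Λ.smul_mem r hl
    | add x y _ _ hx hy =>
      intro l hl
      have : l.comp ((x + y : Module.End ℂ V) : V →ₗ[ℂ] V).toAddMonoidHom
          = l.comp (x : V →ₗ[ℂ] V).toAddMonoidHom + l.comp (y : V →ₗ[ℂ] V).toAddMonoidHom := by
        ext v
        simp
      rw [this]
      exact Λ.add_mem (hx l hl) (hy l hl)
    | mul x y _ _ hx hy =>
      intro l hl
      have : l.comp ((x * y : Module.End ℂ V) : V →ₗ[ℂ] V).toAddMonoidHom
          = (l.comp (x : V →ₗ[ℂ] V).toAddMonoidHom).comp (y : V →ₗ[ℂ] V).toAddMonoidHom := by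
        ext v
        simp
      rw [this]
      exact hy _ (hx l hl)
  have : Module.Finite ℤ Λ := Module.Finite.iff_fg.mpr hfg
  -- the embedding into `Λ → Λ` restricted to a finite generating set
  obtain ⟨s, hs⟩ := hfg
  let Φ : (Algebra.adjoin ℤ G) →ₗ[ℤ] (s → Λ) :=
    { toFun := fun t i => ⟨(i : V →+ ℂ).comp ((t : Module.End ℂ V) : V →ₗ[ℂ] V).toAddMonoidHom,
        hstab' t t.2 _ (hs ▸ Submodule.subset_span i.2)⟩
      map_add' := by
        intro x y
        funext i
        apply Subtype.ext
        ext v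
        simp
      map_smul' := by
        intro r x
        funext i
        apply Subtype.ext
        ext v
        simp }
  have hΦ : Function.Injective Φ := by
    rw [injective_iff_map_eq_zero]
    intro t ht
    apply Subtype.ext
    apply LinearMap.ext
    intro v
    apply hsep
    intro l hl
    rw [← hs] at hl
    induction hl using Submodule.span_induction with
    | mem x hx =>
      have := congrFun ht ⟨x, hx⟩
      have h2 := congrArg (fun (z : Λ) => (z : V →+ ℂ) v) this
      simpa [Φ] using h2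
    | zero => simp
    | add x y _ _ hx hy => simp [hx, hy]
    | smul a x _ hx => simp [hx]
  exact Module.Finite.of_injective Φ hΦ

/-- The same criterion with `ℂ`-linear functionals. -/
theorem finite_adjoin_of_separating_dual {V : Type*} [AddCommGroup V] [Module ℂ V]
    (G : Set (Module.End ℂ V)) (Λ : Submodule ℤ (Module.Dual ℂ V)) (hfg : Λ.FG)
    (hstab : ∀ t ∈ G, ∀ l ∈ Λ, l ∘ₗ t ∈ Λ)
    (hsep : ∀ v : V, (∀ l ∈ Λ, l v = 0) → v = 0) :
    Module.Finite ℤ (Algebra.adjoin ℤ G) := by
  let ι : Module.Dual ℂ V →ₗ[ℤ] (V →+ ℂ) :=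
    { toFun := fun l => l.toAddMonoidHom
      map_add' := fun _ _ => rfl
      map_smul' := fun _ _ => rfl }
  refine finite_adjoin_of_separating G (Λ.map ι) (hfg.map ι) ?_ ?_
  · rintro t ht _ ⟨l, hl, rfl⟩
    exact ⟨l ∘ₗ t, hstab t ht l hl, rfl⟩
  · intro v hv
    exact hsep v fun l hl => hv (ι l) ⟨l, hl, rfl⟩

end Fermat.Agent.S22
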