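import Fermat.Agent.S22.Exist
import Fermat.Prelude.Thm_Subgroup_IsArithmetic_exists_nat_mem_strictPeriods_conj

/-! # S22 : translates of cusp forms are admissible; towers for cusp forms (owner: helper22) -/

set_option autoImplicit false

noncomputable section

open UpperHalfPlane Matrix.SpecialLinearGroup
open scoped MatrixGroups ModularForm Manifold Pointwise

namespace Fermat.Agent.S22

/-- The translates of a cusp form of level `Γ₀(N)` by `SL(2,ℤ)` are holomorphic, periodic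
and vanish at `i∞`. -/
theorem cuspForm_slash_adm {N : ℕ} [NeZero N] {k : ℤ}
    (f : CuspForm (CongruenceSubgroup.Gamma0 N) k) (δ : SL(2, ℤ)) :
    MDiff (⇑f ∣[k] mapGL ℝ δ) ∧
      (∃ h : ℝ, 0 < h ∧ mapGL ℝ δ * Matrix.GeneralLinearGroup.upperRightHom h * (mapGL ℝ δ)⁻¹ ∈
          (CongruenceSubgroup.Gamma0 N).map (mapGL ℝ) ∧
        ∀ τ : ℍ, (⇑f ∣[k] mapGL ℝ δ) (h +ᵥ τ) = (⇑f ∣[k] mapGL ℝ δ) τ) ∧
      IsZeroAtImInfty (⇑f ∣[k] mapGL ℝ δ) := by
  refine ⟨(CuspFormClass.holo f).slash k _, ?_, CuspFormClass.zero_at_infty_slash f δ⟩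
  obtain ⟨M, hM, hper⟩ := Subgroup.IsArithmetic.exists_nat_mem_strictPeriods_conj
    ((CongruenceSubgroup.Gamma0 N).map (mapGL ℝ))
  have h1 := hper δ⁻¹
  refine ⟨M, by exact_mod_cast hM, ?_, ?_⟩
  · rw [Subgroup.mem_strictPeriods_iff, Subgroup.mem_pointwise_smul_iff_inv_smul_mem,
      ← ConjAct.toConjAct_inv, ConjAct.toConjAct_smul] at h1
    simpa using h1
  · intro τ
    have h2 : ((M : ℕ) : ℝ) ∈ (ConjAct.toConjAct (mapGL ℝ δ)⁻¹ •
        (CongruenceSubgroup.Gamma0 N).map (mapGL ℝ)).strictPeriods := by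
      simpa using h1
    exact SlashInvariantForm.vAdd_apply_of_mem_strictPeriods (CuspForm.translate f (mapGL ℝ δ)) τ h2

theorem exists_tower_cuspForm_slash {N : ℕ} [NeZero N] {k : ℤ}
    (f : CuspForm (CongruenceSubgroup.Gamma0 N) k) (δ : SL(2, ℤ)) :
    ∃ s, Tower (⇑f ∣[k] mapGL ℝ δ) s := by
  obtain ⟨h1, ⟨h, hh, -, h2⟩, h3⟩ := cuspForm_slash_adm f δ
  exact exists_tower h1 hh h2 h3

theorem exists_tower_cuspForm {N : ℕ} [NeZero N] {k : ℤ}
    (f : CuspForm (CongruenceSubgroup.Gamma0 N) k) : ∃ s, Tower ⇑f s := by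
  simpa using exists_tower_cuspForm_slash f 1

theorem tower_tow_cuspForm {N : ℕ} [NeZero N] {k : ℤ}
    (f : CuspForm (CongruenceSubgroup.Gamma0 N) k) : Tower ⇑f (tow ⇑f) :=
  tow_spec (exists_tower_cuspForm f)

end Fermat.Agent.S22

end
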