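import Mathlib
import Fermat.Prelude.Def_CuspForm_HeckeAlgebra

/-!
# S22 : definitions for the period lattice argument

Weight `k = m + 2`.  For a cusp form `f` we use the tower `f_0 = f`, `f_{j+1}' = f_j` of iterated
primitives vanishing at `i∞`, the polynomial valued primitive
`FF f z (X, Y) = ∑ j, m!/(m-j)! f_{j+1}(z) (X - z Y)^(m-j) Y^j` of `f(z) (X - z Y)^m`,
and the period cocycle `coc f g v = FF f (g z) (g v) - FF f z v` (independent of `z`).
The period lattice is the `ℤ`-span of the functionals `f ↦ coc f g v`, `g ∈ Γ₀(N)`, `v ∈ ℤ²`.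
-/

set_option autoImplicit false

noncomputable section

open UpperHalfPlane Matrix.SpecialLinearGroup
open scoped MatrixGroups ModularForm Manifold

namespace Fermat.Agent.S22

/-- `ψ` is a holomorphic primitive of `φ` on the upper half plane. -/
def IsPrim (ψ φ : ℍ → ℂ) : Prop :=
  ∀ τ : ℍ, HasDerivAt (ψ ∘ ofComplex) (φ τ) (τ : ℂ)

/-- `s` is the tower of iterated primitives of `φ`, all vanishing at `i∞`. -/
structure Tower (φ : ℍ → ℂ) (s : ℕ → ℍ → ℂ) : Prop where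
  zero : s 0 = φ
  prim : ∀ j, IsPrim (s (j + 1)) (s j)
  decay : ∀ j, IsZeroAtImInfty (s (j + 1))

open Classical in
/-- The canonical tower of `φ` (junk value `0` if there is none). -/
def tow (φ : ℍ → ℂ) : ℕ → ℍ → ℂ :=
  if h : ∃ s, Tower φ s then h.choose else 0

/-- Linear action of a real matrix on `ℂ²`. -/
def act (g : GL (Fin 2) ℝ) (v : ℂ × ℂ) : ℂ × ℂ :=
  (((g 0 0 : ℝ) : ℂ) * v.1 + ((g 0 1 : ℝ) : ℂ) * v.2,
    ((g 1 0 : ℝ) : ℂ) * v.1 + ((g 1 1 : ℝ) : ℂ) * v.2)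

/-- The polynomial valued primitive attached to a tower, evaluated at `v = (X, Y)`. -/
def FF (m : ℕ) (s : ℕ → ℍ → ℂ) (τ : ℍ) (v : ℂ × ℂ) : ℂ :=
  ∑ j ∈ Finset.range (m + 1),
    (m.descFactorial j : ℂ) * s (j + 1) τ * (v.1 - (τ : ℂ) * v.2) ^ (m - j) * v.2 ^ j

/-- The period cocycle (base point `I`). -/
def coc (m : ℕ) (φ : ℍ → ℂ) (g : GL (Fin 2) ℝ) (v : ℂ × ℂ) : ℂ :=
  FF m (tow φ) (g • I) (act g v) - FF m (tow φ) I v

/-- The period lattice inside the dual of `S_{m+2}(Γ₀(N))`. -/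
def periodLattice (N m : ℕ) :
    Submodule ℤ (Module.Dual ℂ (CuspForm (CongruenceSubgroup.Gamma0 N) ((m : ℤ) + 2))) :=
  Submodule.span ℤ {l | ∃ γ ∈ CongruenceSubgroup.Gamma0 N, ∃ x y : ℤ,
    ∀ f, l f = coc m ⇑f (mapGL ℝ γ) ((x : ℂ), (y : ℂ))}

end Fermat.Agent.S22

end
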