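import Fermat.Agent.S22.Tower
import Fermat.Agent.S22.Primitive

/-! # S22 : existence of towers -/

set_option autoImplicit false

noncomputable section

open UpperHalfPlane Matrix.SpecialLinearGroup
open scoped MatrixGroups ModularForm Manifold

namespace Fermat.Agent.S22

theorem periodic_comp_ofComplex_of_vadd {φ : ℍ → ℂ} {h : ℝ}
    (per : ∀ τ : ℍ, φ (h +ᵥ τ) = φ τ) : Function.Periodic (φ ∘ ofComplex) h := by
  intro z
  simp only [Function.comp_apply]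
  by_cases hz : 0 < z.im
  · have hz' : 0 < (z + h).im := by simpa using hz
    rw [ofComplex_apply_of_im_pos hz, ofComplex_apply_of_im_pos hz', ← per ⟨z, hz⟩]
    congr 1
    ext
    simp [UpperHalfPlane.coe_vadd, add_comm]
  · have hz' : ¬ 0 < (z + h).im := by simpa using hz
    rw [ofComplex_apply_of_im_nonpos (not_lt.mp hz), ofComplex_apply_of_im_nonpos (not_lt.mp hz')]

theorem vadd_of_periodic_comp_ofComplex {φ : ℍ → ℂ} {h : ℝ}
    (per : Function.Periodic (φ ∘ ofComplex) h) (τ : ℍ) : φ (h +ᵥ τ) = φ τ := by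
  have := per (τ : ℂ)
  simp only [Function.comp_apply, ofComplex_apply] at this
  rw [← this]
  congr 1
  have h2 : ((τ : ℂ) + (h : ℂ)) = ((h +ᵥ τ : ℍ) : ℂ) := by
    simp [UpperHalfPlane.coe_vadd, add_comm]
  rw [h2, ofComplex_apply]

/-- One step: a holomorphic `h`-periodic function vanishing at `i∞` has a primitive of the same
kind. -/
theorem exists_prim {φ : ℍ → ℂ} (hol : MDiff φ) {h : ℝ} (hh : 0 < h)
    (per : ∀ τ : ℍ, φ (h +ᵥ τ) = φ τ) (hz : IsZeroAtImInfty φ) :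
    ∃ ψ : ℍ → ℂ, IsPrim ψ φ ∧ MDiff ψ ∧ (∀ τ : ℍ, ψ (h +ᵥ τ) = ψ τ) ∧ IsZeroAtImInfty ψ := by
  obtain ⟨ψ, h1, h2, h3, h4, -⟩ :=
    exists_decaying_primitive hh (periodic_comp_ofComplex_of_vadd per) hol hz
  exact ⟨ψ, h4, h2, vadd_of_periodic_comp_ofComplex h1, h3⟩

theorem exists_tower {φ : ℍ → ℂ} (hol : MDiff φ) {h : ℝ} (hh : 0 < h)
    (per : ∀ τ : ℍ, φ (h +ᵥ τ) = φ τ) (hz : IsZeroAtImInfty φ) : ∃ s, Tower φ s := by
  classical
  let P : (ℍ → ℂ) → Prop := fun ψ => MDiff ψ ∧ (∀ τ : ℍ, ψ (h +ᵥ τ) = ψ τ) ∧ IsZeroAtImInfty ψ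
  have step : ∀ a : {ψ // P ψ}, ∃ b : {ψ // P ψ}, IsPrim b.1 a.1 := by
    rintro ⟨a, ha1, ha2, ha3⟩
    obtain ⟨b, hb0, hb1, hb2, hb3⟩ := exists_prim ha1 hh ha2 ha3
    exact ⟨⟨b, hb1, hb2, hb3⟩, hb0⟩
  choose nxt hnxt using step
  let S : ℕ → {ψ // P ψ} := fun j => Nat.rec ⟨φ, hol, per, hz⟩ (fun _ a => nxt a) j
  refine ⟨fun j => (S j).1, rfl, fun j => hnxt (S j), fun j => (S (j + 1)).2.2.2⟩

end Fermat.Agent.S22

end
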