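import Fermat.Agent.S22.Defs

/-! # S22 : basic algebra of towers (owner: helper22) -/

set_option autoImplicit false

noncomputable section

open UpperHalfPlane Matrix.SpecialLinearGroup
open scoped MatrixGroups ModularForm Manifold

namespace Fermat.Agent.S22

variable {φ ψ : ℍ → ℂ} {s t : ℕ → ℍ → ℂ}

theorem isPreconnected_uhp : IsPreconnected {z : ℂ | 0 < z.im} :=
  (convex_halfSpace_im_gt 0).isPreconnected

/-- a function on `ℍ` with vanishing derivative is constant -/
theorem const_of_isPrim_zero {a : ℍ → ℂ} (ha : IsPrim a 0) (τ τ' : ℍ) : a τ = a τ' := by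
  have hd : DifferentiableOn ℂ (a ∘ ofComplex) {z : ℂ | 0 < z.im} := fun z hz =>
    (ha ⟨z, hz⟩).differentiableAt.differentiableWithinAt
  have hd' : Set.EqOn (deriv (a ∘ ofComplex)) 0 {z : ℂ | 0 < z.im} := fun z hz =>
    (ha ⟨z, hz⟩).deriv
  have := isOpen_upperHalfPlaneSet.is_const_of_deriv_eq_zero isPreconnected_uhp hd hd'
    τ.im_pos τ'.im_pos
  simpa [Function.comp_apply, ofComplex_apply] using this

theorem IsPrim.add {a b : ℍ → ℂ} (ha : IsPrim a φ) (hb : IsPrim b ψ) : IsPrim (a + b) (φ + ψ) :=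
  fun τ => (ha τ).add (hb τ)

theorem IsPrim.sub {a b : ℍ → ℂ} (ha : IsPrim a φ) (hb : IsPrim b ψ) : IsPrim (a - b) (φ - ψ) :=
  fun τ => (ha τ).sub (hb τ)

theorem IsPrim.smul {a : ℍ → ℂ} (c : ℂ) (ha : IsPrim a φ) : IsPrim (c • a) (c • φ) :=
  fun τ => (ha τ).const_smul c

theorem isPrim_zero : IsPrim (0 : ℍ → ℂ) 0 := fun _ => hasDerivAt_const _ _

/-- two primitives of the same function, both vanishing at `i∞`, agree -/
theorem IsPrim.unique {a b : ℍ → ℂ} (ha : IsPrim a φ) (hb : IsPrim b φ)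
    (ha0 : IsZeroAtImInfty a) (hb0 : IsZeroAtImInfty b) : a = b := by
  have h0 : IsPrim (a - b) 0 := by simpa using ha.sub hb
  have hc : ∀ τ, (a - b) τ = (a - b) I := fun τ => const_of_isPrim_zero h0 τ I
  have hlim : Filter.Tendsto (a - b) atImInfty (nhds 0) := by
    have := Filter.Tendsto.sub ha0 hb0
    rw [sub_zero] at this
    exact this
  have hlim' : Filter.Tendsto (a - b) atImInfty (nhds ((a - b) I)) := by
    have : (a - b) = fun _ => (a - b) I := funext hc
    rw [this]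
    exact tendsto_const_nhds
  have h := tendsto_nhds_unique hlim' hlim
  funext τ
  have := hc τ
  rw [h] at this
  simpa [sub_eq_zero] using this

theorem Tower.unique (hs : Tower φ s) (ht : Tower φ t) : s = t := by
  funext j
  induction j with
  | zero => rw [hs.zero, ht.zero]
  | succ j ih =>
    exact IsPrim.unique (hs.prim j) (ih ▸ ht.prim j) (hs.decay j) (ht.decay j)

theorem tow_spec (h : ∃ s, Tower φ s) : Tower φ (tow φ) := by
  unfold tow
  rw [dif_pos h]
  exact h.choose_spec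

theorem Tower.tow_eq (hs : Tower φ s) : tow φ = s :=
  (tow_spec ⟨s, hs⟩).unique hs

theorem Tower.zero_tower : Tower (0 : ℍ → ℂ) 0 :=
  ⟨rfl, fun _ => isPrim_zero, fun _ => tendsto_const_nhds⟩

theorem Tower.add (hs : Tower φ s) (ht : Tower ψ t) : Tower (φ + ψ) (s + t) :=
  ⟨by rw [Pi.add_apply, hs.zero, ht.zero], fun j => (hs.prim j).add (ht.prim j),
    fun j => by
      have := Filter.Tendsto.add (hs.decay j) (ht.decay j)
      rw [add_zero] at this
      exact this⟩

theorem Tower.smul (c : ℂ) (hs : Tower φ s) : Tower (c • φ) (c • s) :=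
  ⟨by rw [Pi.smul_apply, hs.zero], fun j => (hs.prim j).smul c,
    fun j => by
      have := Filter.Tendsto.const_smul (hs.decay j) c
      rw [smul_zero] at this
      exact this⟩

theorem Tower.sum {ι : Type*} (A : Finset ι) {F : ι → ℍ → ℂ} {S : ι → ℕ → ℍ → ℂ}
    (h : ∀ i ∈ A, Tower (F i) (S i)) : Tower (∑ i ∈ A, F i) (∑ i ∈ A, S i) := by
  classical
  induction A using Finset.induction_on with
  | empty => simpa using Tower.zero_tower
  | insert a A ha ih =>
    rw [Finset.sum_insert ha, Finset.sum_insert ha]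
    exact (h a (Finset.mem_insert_self a A)).add
      (ih fun i hi => h i (Finset.mem_insert_of_mem hi))

theorem IsPrim.vadd {a : ℍ → ℂ} (ha : IsPrim a φ) (h : ℝ) :
    IsPrim (fun τ => a (h +ᵥ τ)) (fun τ => φ (h +ᵥ τ)) := by
  intro τ
  have h1 : HasDerivAt (fun z : ℂ => z + (h : ℂ)) 1 (τ : ℂ) := (hasDerivAt_id _).add_const _
  have h2 : HasDerivAt (a ∘ ofComplex) (φ (h +ᵥ τ)) ((τ : ℂ) + (h : ℂ)) := by
    have := ha (h +ᵥ τ)
    rwa [UpperHalfPlane.coe_vadd, add_comm] at this
  have h3 := h2.comp (τ : ℂ) h1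
  rw [mul_one] at h3
  refine h3.congr_of_eventuallyEq ?_
  filter_upwards [isOpen_upperHalfPlaneSet.mem_nhds τ.im_pos] with w hw
  have hw' : 0 < (w + (h : ℂ)).im := by simpa using hw
  simp only [Function.comp_apply]
  rw [ofComplex_apply_of_im_pos hw, ofComplex_apply_of_im_pos hw']
  congr 1
  ext
  simp [UpperHalfPlane.coe_vadd, add_comm]

theorem tendsto_vadd_atImInfty (h : ℝ) :
    Filter.Tendsto (fun τ : ℍ => h +ᵥ τ) atImInfty atImInfty := by
  simp only [atImInfty, Filter.tendsto_comap_iff, Function.comp_def, UpperHalfPlane.vadd_im]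
  exact Filter.tendsto_comap

/-- translation of a tower -/
theorem Tower.vadd (hs : Tower φ s) (h : ℝ) :
    Tower (fun τ => φ (h +ᵥ τ)) (fun j τ => s j (h +ᵥ τ)) :=
  ⟨by simp only [hs.zero], fun j => (hs.prim j).vadd h,
    fun j => (hs.decay j).comp (tendsto_vadd_atImInfty h)⟩

theorem Tower.periodic (hs : Tower φ s) {h : ℝ} (per : ∀ τ : ℍ, φ (h +ᵥ τ) = φ τ) (j : ℕ) (τ : ℍ) :
    s j (h +ᵥ τ) = s j τ := by
  have h1 := hs.vadd h
  have h2 : (fun τ => φ (h +ᵥ τ)) = φ := funext per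
  rw [h2] at h1
  exact congrFun (congrFun (h1.unique hs) j) τ

theorem IsPrim.mdiff {a : ℍ → ℂ} (ha : IsPrim a φ) : MDiff a := by
  rw [UpperHalfPlane.mdifferentiable_iff]
  exact fun z hz => (ha ⟨z, hz⟩).differentiableAt.differentiableWithinAt

/-- every level of a tower above the bottom is holomorphic -/
theorem Tower.mdiff (hs : Tower φ s) (j : ℕ) : MDiff (s (j + 1)) :=
  (hs.prim j).mdiff

/-- if some level of the tower vanishes identically then so does the bottom -/
theorem Tower.eq_zero_of_level (hs : Tower φ s) {j : ℕ} (h : s j = 0) : φ = 0 := by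
  induction j with
  | zero => rw [← hs.zero, h]
  | succ j ih =>
    apply ih
    funext τ
    have h1 := hs.prim j τ
    rw [h] at h1
    exact h1.unique (isPrim_zero τ)

/-! ### linearity of `FF` in the tower -/

theorem FF_add (m : ℕ) (s t : ℕ → ℍ → ℂ) (τ : ℍ) (v : ℂ × ℂ) :
    FF m (s + t) τ v = FF m s τ v + FF m t τ v := by
  simp only [FF, Pi.add_apply, ← Finset.sum_add_distrib]
  exact Finset.sum_congr rfl fun j _ => by ring

theorem FF_smul (m : ℕ) (c : ℂ) (s : ℕ → ℍ → ℂ) (τ : ℍ) (v : ℂ × ℂ) :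
    FF m (c • s) τ v = c * FF m s τ v := by
  simp only [FF, Pi.smul_apply, smul_eq_mul, Finset.mul_sum]
  exact Finset.sum_congr rfl fun j _ => by ring

theorem FF_zero (m : ℕ) (τ : ℍ) (v : ℂ × ℂ) : FF m 0 τ v = 0 := by
  simp [FF]

theorem FF_sum {ι : Type*} (A : Finset ι) (m : ℕ) (S : ι → ℕ → ℍ → ℂ) (τ : ℍ) (v : ℂ × ℂ) :
    FF m (∑ i ∈ A, S i) τ v = ∑ i ∈ A, FF m (S i) τ v := by
  classical
  induction A using Finset.induction_on with
  | empty => simp [FF_zero]
  | insert a A ha ih => rw [Finset.sum_insert ha, Finset.sum_insert ha, FF_add, ih]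

/-- homogeneity of degree `m` in `v` -/
theorem FF_homog (m : ℕ) (s : ℕ → ℍ → ℂ) (τ : ℍ) (c : ℂ) (v : ℂ × ℂ) :
    FF m s τ (c * v.1, c * v.2) = c ^ m * FF m s τ v := by
  simp only [FF, Finset.mul_sum]
  refine Finset.sum_congr rfl fun j hj => ?_
  have hj' : j ≤ m := Nat.lt_succ_iff.mp (Finset.mem_range.mp hj)
  have : c ^ m = c ^ (m - j) * c ^ j := by rw [← pow_add, Nat.sub_add_cancel hj']
  rw [this, show c * v.1 - (τ : ℂ) * (c * v.2) = c * (v.1 - (τ : ℂ) * v.2) by ring, mul_pow, mul_pow]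
  ring

/-- on the diagonal only the top term survives -/
theorem FF_diag (m : ℕ) (s : ℕ → ℍ → ℂ) (τ : ℍ) :
    FF m s τ ((τ : ℂ), 1) = (m.factorial : ℂ) * s (m + 1) τ := by
  simp only [FF]
  rw [Finset.sum_eq_single m]
  · simp [Nat.descFactorial_self]
  · intro j hj hjm
    have hj' : j < m := lt_of_le_of_ne (Nat.lt_succ_iff.mp (Finset.mem_range.mp hj)) hjm
    have : m - j ≠ 0 := by omega
    simp [this]
  · intro h
    exact absurd (Finset.mem_range.mpr (Nat.lt_succ_self m)) h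

theorem act_mul (g h : GL (Fin 2) ℝ) (v : ℂ × ℂ) : act (g * h) v = act g (act h v) := by
  simp only [act, Matrix.GeneralLinearGroup.coe_mul, Matrix.mul_apply, Fin.sum_univ_two]
  ext <;> push_cast <;> ring

theorem act_one (v : ℂ × ℂ) : act 1 v = v := by
  simp [act]

end Fermat.Agent.S22

end
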